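/-
Program JAC, S26 track, chapter AV (helper66): functor-of-points calculus for a `RelativeGroupLaw`.

* `pointCommGroup` : the commutative group of `T`-points.
* Yoneda: every `T`-point is the pullback of the identity point; `nsmul` is composition with
  `schemeNsmul`.
* translations `transl a : A ⟶ A` by a section `a`, and `[n] ∘ τ_a = τ_{n a} ∘ [n]`.
-/
import Mathlib
import Fermat.Prelude.Def_JacJ1Iface
import Fermat.Prelude.Def_GoodReductionJacobian_RelativeGroupLawKernel

set_option autoImplicit false

open CategoryTheory CategoryTheory.Limits AlgebraicGeometry NeronModelInfra GoodReductionJacobian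

universe u

namespace Fermat.Agent.JAC.AV.Basic66

variable {R : Type u} [CommRing R] {A : Scheme.{u}} {f : A ⟶ Spec (CommRingCat.of R)}

/-- The group of `T`-points as a `Group` (reducible wrapper around the Prelude's `pointGroup`). -/
@[reducible] def pointGroup (L : RelativeGroupLaw R f) {T : Scheme.{u}}
    (t : T ⟶ Spec (CommRingCat.of R)) : Group (SchemeHomOver t f) :=
  L.pointGroup t

/-- The commutative group of `T`-points of a commutative relative group law. -/
@[reducible] def pointCommGroup (L : RelativeGroupLaw R f) (hc : L.IsCommutative) {T : Scheme.{u}}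
    (t : T ⟶ Spec (CommRingCat.of R)) : CommGroup (SchemeHomOver t f) :=
  { L.pointGroup t with mul_comm := fun x y => hc t x y }

section Yoneda

variable (L : RelativeGroupLaw R f)

/-- Every `T`-point is the pullback of the identity point along itself. -/
theorem eq_comp_idPoint {T : Scheme.{u}} {t : T ⟶ Spec (CommRingCat.of R)}
    (x : SchemeHomOver t f) :
    x = schemeHomOverComp x.1 x.2 (RelativeGroupLaw.idPoint (f := f)) := by
  apply Subtype.ext
  simp [schemeHomOverComp]

/-- `nsmul` on `T`-points is composition with the scheme morphism `[n]`. -/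
theorem nsmul_coe {T : Scheme.{u}} (t : T ⟶ Spec (CommRingCat.of R)) (n : ℕ)
    (x : SchemeHomOver t f) :
    (L.nsmul t n x).1 = x.1 ≫ L.schemeNsmul n := by
  have h := L.nsmul_natural f t x.1 x.2 n (RelativeGroupLaw.idPoint (f := f))
  rw [← eq_comp_idPoint x] at h
  rw [← h]
  rfl

/-- The unit point over `T` is the structure map followed by the unit section. -/
theorem one_coe {T : Scheme.{u}} (t : T ⟶ Spec (CommRingCat.of R)) :
    (L.one t).1 = t ≫ (L.one (𝟙 (Spec (CommRingCat.of R)))).1 := by
  have h := L.one_natural (𝟙 (Spec (CommRingCat.of R))) t t (Category.comp_id t)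
  rw [← h]
  rfl

end Yoneda

end Fermat.Agent.JAC.AV.Basic66

namespace Fermat.Agent.JAC.AV.Basic66

variable {R : Type u} [CommRing R] {A : Scheme.{u}} {f : A ⟶ Spec (CommRingCat.of R)}

section Pow

variable (L : RelativeGroupLaw R f)

/-- `nsmul` is the `n`-th power in the point group. -/
theorem nsmul_eq_pow {T : Scheme.{u}} (t : T ⟶ Spec (CommRingCat.of R)) (n : ℕ)
    (x : SchemeHomOver t f) :
    L.nsmul t n x = (letI := pointGroup L t; x ^ n) := by
  let _ := pointGroup L t
  induction n with
  | zero => rw [pow_zero]; rfl
  | succ n ih => rw [pow_succ, ← ih]; rfl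

/-- A point is `n`-torsion iff its `n`-th power in the point group is `1`. -/
theorem isTorsionPoint_iff_pow_eq_one {T : Scheme.{u}} (t : T ⟶ Spec (CommRingCat.of R)) (n : ℕ)
    (x : SchemeHomOver t f) :
    L.IsTorsionPoint t n x ↔ (letI := pointGroup L t; x ^ n = 1) := by
  rw [← nsmul_eq_pow]
  rfl

end Pow

end Fermat.Agent.JAC.AV.Basic66
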