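/-
Program JAC, S26 track, chapter AV (helper66): morphisms out of a one-point affine scheme.

* `exists_factor_fromSpec` : a morphism `Spec R ⟶ X` from a ring with a unique prime ideal factors
  through every affine open containing the image of the point.
* `hom_ext_of_jointly_injective` : two morphisms `Spec R ⟶ X` (`R` with a unique prime) that agree after
  restriction along two jointly injective ring maps `R → R₁`, `R → R₂` are equal.
-/
import Mathlib

set_option autoImplicit false

open CategoryTheory CategoryTheory.Limits AlgebraicGeometry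

universe u

namespace Fermat.Agent.JAC.AV.JointMono66

variable {X : Scheme.{u}}

/-- A morphism from the spectrum of a ring with at most one prime factors through an affine open
containing the image of some point. -/
theorem exists_factor_fromSpec {R : CommRingCat.{u}}
    (hR : ∀ p q : PrimeSpectrum R, p = q) (c : Spec R ⟶ X) (p₀ : Spec R)
    {U : X.Opens} (hU : IsAffineOpen U) (hp : c.base p₀ ∈ U) :
    ∃ ψ : Γ(X, U) ⟶ R, c = Spec.map ψ ≫ hU.fromSpec := by
  have hrange : Set.range c.base ⊆ Set.range hU.fromSpec.base := by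
    rintro _ ⟨p, rfl⟩
    rw [hU.range_fromSpec]
    have : p = p₀ := hR p p₀
    rw [this]
    exact hp
  refine ⟨Spec.preimage (IsOpenImmersion.lift hU.fromSpec c hrange), ?_⟩
  rw [Spec.map_preimage, IsOpenImmersion.lift_fac]

/-- Joint injectivity of two ring maps out of a one-point ring is inherited by morphisms out of its
spectrum. -/
theorem hom_ext_of_jointly_injective {R R₁ R₂ : CommRingCat.{u}}
    (hR : ∀ p q : PrimeSpectrum R, p = q) [Nontrivial R₁]
    (φ₁ : R ⟶ R₁) (φ₂ : R ⟶ R₂)
    (hinj : ∀ r r' : R, φ₁ r = φ₁ r' → φ₂ r = φ₂ r' → r = r')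
    (c c' : Spec R ⟶ X)
    (h₁ : Spec.map φ₁ ≫ c = Spec.map φ₁ ≫ c')
    (h₂ : Spec.map φ₂ ≫ c = Spec.map φ₂ ≫ c') : c = c' := by
  obtain ⟨y⟩ : Nonempty (PrimeSpectrum R₁) := inferInstance
  let y' : Spec R₁ := y
  let p₀ : Spec R := (Spec.map φ₁).base y'
  have hpt : c.base p₀ = c'.base p₀ := by
    have := congrArg (fun g : Spec R₁ ⟶ X => g.base y') h₁
    simpa using this
  obtain ⟨U, hU, hmem, -⟩ :=
    exists_isAffineOpen_mem_and_subset (X := X) (x := c.base p₀) (U := ⊤) trivial
  obtain ⟨ψ, hψ⟩ := exists_factor_fromSpec hR c p₀ hU hmem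
  obtain ⟨ψ', hψ'⟩ := exists_factor_fromSpec hR c' p₀ hU (hpt ▸ hmem)
  have e₁ : ψ ≫ φ₁ = ψ' ≫ φ₁ := by
    apply Spec.map_injective
    rw [Spec.map_comp, Spec.map_comp]
    rw [← cancel_mono hU.fromSpec, Category.assoc, Category.assoc, ← hψ, ← hψ']
    exact h₁
  have e₂ : ψ ≫ φ₂ = ψ' ≫ φ₂ := by
    apply Spec.map_injective
    rw [Spec.map_comp, Spec.map_comp]
    rw [← cancel_mono hU.fromSpec, Category.assoc, Category.assoc, ← hψ, ← hψ']
    exact h₂
  have : ψ = ψ' := by
    ext r
    apply hinj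
    · exact congrArg (fun g : Γ(X, U) ⟶ R₁ => g r) e₁
    · exact congrArg (fun g : Γ(X, U) ⟶ R₂ => g r) e₂
  rw [hψ, hψ', this]

end Fermat.Agent.JAC.AV.JointMono66
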