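/-
Program JAC, S26 track, chapter AV (helper66): the functor of points of a relative group law on
`K`-algebras.

* `specStr K R : Spec R ⟶ Spec K`, `PtG L R` : the group of `R`-points, `PtG.map φ` : functoriality
  in `K`-algebra homomorphisms (a group homomorphism).
* `pow_coe` : the `n`-th power of a point is the composition with `[n] = L.schemeNsmul n`.
-/
import Fermat.Agent.JAC.AV.Basic66

set_option autoImplicit false

open CategoryTheory CategoryTheory.Limits AlgebraicGeometry NeronModelInfra GoodReductionJacobian

universe u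

noncomputable section

namespace Fermat.Agent.JAC.AV.Points66

open Fermat.Agent.JAC.AV.Basic66

variable (K : Type u) [CommRing K]

/-- The structure morphism `Spec R ⟶ Spec K` of a `K`-algebra `R`. -/
def specStr (R : Type u) [CommRing R] [Algebra K R] :
    Spec (CommRingCat.of R) ⟶ Spec (CommRingCat.of K) :=
  Spec.map (CommRingCat.ofHom (algebraMap K R))

/-- `Spec` of a `K`-algebra homomorphism. -/
def specAlgMap {R R' : Type u} [CommRing R] [CommRing R'] [Algebra K R] [Algebra K R']
    (φ : R →ₐ[K] R') : Spec (CommRingCat.of R') ⟶ Spec (CommRingCat.of R) :=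
  Spec.map (CommRingCat.ofHom φ.toRingHom)

variable {K}

theorem specAlgMap_specStr {R R' : Type u} [CommRing R] [CommRing R'] [Algebra K R] [Algebra K R']
    (φ : R →ₐ[K] R') : specAlgMap K φ ≫ specStr K R = specStr K R' := by
  unfold specAlgMap specStr
  rw [← Spec.map_comp]
  congr 1
  ext x
  simp

theorem specAlgMap_id (R : Type u) [CommRing R] [Algebra K R] :
    specAlgMap K (AlgHom.id K R) = 𝟙 _ := by
  unfold specAlgMap
  exact Spec.map_id _

theorem specAlgMap_comp {R R' R'' : Type u} [CommRing R] [CommRing R'] [CommRing R'']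
    [Algebra K R] [Algebra K R'] [Algebra K R''] (φ : R →ₐ[K] R') (ψ : R' →ₐ[K] R'') :
    specAlgMap K (ψ.comp φ) = specAlgMap K ψ ≫ specAlgMap K φ := by
  unfold specAlgMap
  rw [← Spec.map_comp]
  rfl

variable {A : Scheme.{u}} {f : A ⟶ Spec (CommRingCat.of K)}

/-- The group of `R`-points of `A` for a `K`-algebra `R` (type synonym carrying the group law). -/
def PtG (_L : RelativeGroupLaw K f) (R : Type u) [CommRing R] [Algebra K R] : Type u :=
  SchemeHomOver (specStr K R) f

variable (L : RelativeGroupLaw K f)

instance instGroupPtG (R : Type u) [CommRing R] [Algebra K R] : Group (PtG L R) :=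
  L.pointGroup (specStr K R)

namespace PtG

variable {L}

/-- The underlying morphism of a point. -/
def hom {R : Type u} [CommRing R] [Algebra K R] (x : PtG L R) : Spec (CommRingCat.of R) ⟶ A := x.1

theorem hom_over {R : Type u} [CommRing R] [Algebra K R] (x : PtG L R) :
    x.hom ≫ f = specStr K R := x.2

@[ext] theorem ext {R : Type u} [CommRing R] [Algebra K R] {x y : PtG L R} (h : x.hom = y.hom) :
    x = y := Subtype.ext h

/-- Construct a point from a morphism over `Spec K`. -/
def mk {R : Type u} [CommRing R] [Algebra K R] (c : Spec (CommRingCat.of R) ⟶ A)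
    (hc : c ≫ f = specStr K R) : PtG L R := ⟨c, hc⟩

@[simp] theorem mk_hom {R : Type u} [CommRing R] [Algebra K R] (c : Spec (CommRingCat.of R) ⟶ A)
    (hc : c ≫ f = specStr K R) : (mk (L := L) c hc).hom = c := rfl

theorem mul_def {R : Type u} [CommRing R] [Algebra K R] (x y : PtG L R) :
    x * y = L.mul (specStr K R) x y := rfl

theorem one_def {R : Type u} [CommRing R] [Algebra K R] :
    (1 : PtG L R) = L.one (specStr K R) := rfl

/-- Functoriality of points in `K`-algebra homomorphisms, as a group homomorphism. -/
def map {R R' : Type u} [CommRing R] [CommRing R'] [Algebra K R] [Algebra K R']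
    (φ : R →ₐ[K] R') : PtG L R →* PtG L R' where
  toFun x := schemeHomOverComp (specAlgMap K φ) (specAlgMap_specStr φ) x
  map_one' := L.one_natural (specStr K R) (specStr K R') (specAlgMap K φ) (specAlgMap_specStr φ)
  map_mul' x y :=
    L.mul_natural (specStr K R) (specStr K R') (specAlgMap K φ) (specAlgMap_specStr φ) x y

@[simp] theorem map_hom {R R' : Type u} [CommRing R] [CommRing R'] [Algebra K R] [Algebra K R']
    (φ : R →ₐ[K] R') (x : PtG L R) : (map φ x).hom = specAlgMap K φ ≫ x.hom := rfl

theorem map_id_apply {R : Type u} [CommRing R] [Algebra K R] (x : PtG L R) :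
    map (AlgHom.id K R) x = x := by
  ext
  rw [map_hom, specAlgMap_id, Category.id_comp]

theorem map_comp_apply {R R' R'' : Type u} [CommRing R] [CommRing R'] [CommRing R'']
    [Algebra K R] [Algebra K R'] [Algebra K R''] (φ : R →ₐ[K] R') (ψ : R' →ₐ[K] R'')
    (x : PtG L R) : map (ψ.comp φ) x = map ψ (map φ x) := by
  ext
  rw [map_hom, map_hom, map_hom, specAlgMap_comp, Category.assoc]

/-- The `n`-th power of a point is its composition with `[n]`. -/
theorem pow_hom {R : Type u} [CommRing R] [Algebra K R] (x : PtG L R) (n : ℕ) :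
    (x ^ n).hom = x.hom ≫ L.schemeNsmul n := by
  have h1 : x ^ n = L.nsmul (specStr K R) n x := by
    induction n with
    | zero => rw [pow_zero]; rfl
    | succ n ih => rw [pow_succ, ih]; rfl
  rw [h1]
  exact nsmul_coe L (specStr K R) n x

end PtG

end Fermat.Agent.JAC.AV.Points66
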