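/-
Program JAC, S26 track, chapter AV (helper66): affine charts and points.

For `f : A ⟶ Spec K` and an affine open `U` of `A`, `Γ(A, U)` is a `K`-algebra (`kToΓ`), and
`K`-algebra maps `Γ(A, U) → R` give `R`-points of `A` (`ptOfAlgHom`); conversely a point with values
in a one-point ring whose image lies in `U` comes from a unique such map.
-/
import Fermat.Agent.JAC.AV.Points66
import Fermat.Agent.JAC.AV.JointMono66

set_option autoImplicit false

open CategoryTheory CategoryTheory.Limits AlgebraicGeometry NeronModelInfra GoodReductionJacobian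

universe u

noncomputable section

namespace Fermat.Agent.JAC.AV.Charts66

open Fermat.Agent.JAC.AV.Points66 Fermat.Agent.JAC.AV.JointMono66

variable {K : Type u} [CommRing K] {A : Scheme.{u}} (f : A ⟶ Spec (CommRingCat.of K))

/-- The structure map `K → Γ(A, U)`. -/
def kToΓ (U : A.Opens) : CommRingCat.of K ⟶ Γ(A, U) :=
  (Scheme.ΓSpecIso (CommRingCat.of K)).inv ≫ f.appLE ⊤ U le_top

theorem fromSpec_comp {U : A.Opens} (hU : IsAffineOpen U) :
    hU.fromSpec ≫ f = Spec.map (kToΓ f U) := by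
  have h := IsAffineOpen.SpecMap_appLE_fromSpec f (isAffineOpen_top (Spec (CommRingCat.of K))) hU
    (le_top : U ≤ f ⁻¹ᵁ ⊤)
  rw [← h, IsAffineOpen.fromSpec_top, Scheme.isoSpec_Spec_inv, ← Spec.map_comp]
  rfl

/-- The `K`-algebra structure on `Γ(A, U)`. -/
@[reducible] def algebraΓ (U : A.Opens) : Algebra K Γ(A, U) := (kToΓ f U).hom.toAlgebra

theorem kToΓ_comp_appLE (φ : A ⟶ A) (hφ : φ ≫ f = f) (U V : A.Opens) (e : V ≤ φ ⁻¹ᵁ U) :
    kToΓ f U ≫ φ.appLE U V e = kToΓ f V := by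
  unfold kToΓ
  rw [Category.assoc, Scheme.Hom.appLE_comp_appLE]
  congr 1
  simp only [hφ]

variable {f}
variable (L : RelativeGroupLaw K f)

/-- The `R`-point attached to a `K`-algebra map `Γ(A, U) → R`. -/
def ptOfAlgHom {U : A.Opens} (hU : IsAffineOpen U) {R : Type u} [CommRing R] [Algebra K R]
    (ψ : letI := algebraΓ f U; Γ(A, U) →ₐ[K] R) : PtG L R :=
  let _ := algebraΓ f U
  PtG.mk (Spec.map (CommRingCat.ofHom ψ.toRingHom) ≫ hU.fromSpec) (by
    rw [Category.assoc, fromSpec_comp, ← Spec.map_comp]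
    unfold specStr
    congr 1
    ext x
    exact ψ.commutes x)

theorem ptOfAlgHom_hom {U : A.Opens} (hU : IsAffineOpen U) {R : Type u} [CommRing R] [Algebra K R]
    (ψ : letI := algebraΓ f U; Γ(A, U) →ₐ[K] R) :
    (ptOfAlgHom L hU ψ).hom = Spec.map (CommRingCat.ofHom (letI := algebraΓ f U; ψ.toRingHom)) ≫
      hU.fromSpec := rfl

theorem ptOfAlgHom_injective {U : A.Opens} (hU : IsAffineOpen U) {R : Type u} [CommRing R]
    [Algebra K R] (ψ₁ ψ₂ : letI := algebraΓ f U; Γ(A, U) →ₐ[K] R)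
    (h : ptOfAlgHom L hU ψ₁ = ptOfAlgHom L hU ψ₂) : ψ₁ = ψ₂ := by
  let _ := algebraΓ f U
  have h' := congrArg PtG.hom h
  rw [ptOfAlgHom_hom, ptOfAlgHom_hom, cancel_mono] at h'
  have h'' := Spec.map_injective h'
  ext x
  exact congrArg (fun g : Γ(A, U) ⟶ CommRingCat.of R => g.hom x) h''

theorem map_ptOfAlgHom {U : A.Opens} (hU : IsAffineOpen U) {R R' : Type u} [CommRing R]
    [CommRing R'] [Algebra K R] [Algebra K R'] (φ : R →ₐ[K] R')
    (ψ : letI := algebraΓ f U; Γ(A, U) →ₐ[K] R) :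
    PtG.map φ (ptOfAlgHom L hU ψ) = ptOfAlgHom L hU (letI := algebraΓ f U; φ.comp ψ) := by
  let _ := algebraΓ f U
  apply PtG.ext
  rw [PtG.map_hom, ptOfAlgHom_hom, ptOfAlgHom_hom, ← Category.assoc]
  congr 1
  unfold specAlgMap
  rw [← Spec.map_comp]
  rfl

/-- A point with values in a one-point ring whose image lies in `U` comes from an algebra map. -/
theorem exists_eq_ptOfAlgHom {U : A.Opens} (hU : IsAffineOpen U) {R : Type u} [CommRing R]
    [Algebra K R] (hR : ∀ p q : PrimeSpectrum R, p = q) (v : PtG L R)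
    (p₀ : Spec (CommRingCat.of R)) (hp : v.hom.base p₀ ∈ U) :
    ∃ ψ : (letI := algebraΓ f U; Γ(A, U) →ₐ[K] R), v = ptOfAlgHom L hU ψ := by
  let _ := algebraΓ f U
  obtain ⟨ψ₀, hψ₀⟩ := exists_factor_fromSpec (R := CommRingCat.of R) hR v.hom p₀ hU hp
  have hcomm : kToΓ f U ≫ ψ₀ = CommRingCat.ofHom (algebraMap K R) := by
    apply Spec.map_injective
    rw [Spec.map_comp, ← fromSpec_comp f hU, ← Category.assoc, ← hψ₀, v.hom_over]
    rfl
  refine ⟨{ ψ₀.hom with commutes' := fun x => ?_ }, ?_⟩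
  · exact congrArg (fun g : CommRingCat.of K ⟶ CommRingCat.of R => g.hom x) hcomm
  · apply PtG.ext
    rw [ptOfAlgHom_hom, hψ₀]
    rfl

end Fermat.Agent.JAC.AV.Charts66
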