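/-
Program JAC, S26 track, chapter AV (helper66): an étaleness criterion via derivations into residue
fields.

`K → B' → B` with `B` formally smooth over `K`, `Ω[B'/K]` and `Ω[B/K]` finite.  If for every maximal
ideal `q` of `B` restriction of derivations `Der_K(B, B/q) → Der_K(B', B/q)` is bijective, then
`B' → B` is formally étale.  (Jacobi–Zariski + Nakayama in the form "a nonzero finite module has a
simple quotient".)  Mathlib only.
-/
import Mathlib

set_option autoImplicit false

open TensorProduct

universe u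

namespace Fermat.Agent.JAC.AV.EtaleCrit66

section LinAlg

variable {B : Type u} [CommRing B]

/-- A nontrivial finite module has a simple quotient `B ⧸ q`. -/
theorem exists_surjective_to_quotient_maximal (N : Type u) [AddCommGroup N] [Module B N]
    [Module.Finite B N] [Nontrivial N] :
    ∃ q : Ideal B, q.IsMaximal ∧ ∃ g : N →ₗ[B] B ⧸ q, Function.Surjective g := by
  obtain ⟨m, hm, -⟩ := (eq_top_or_exists_le_coatom (⊥ : Submodule B N)).resolve_left bot_ne_top
  have hs : IsSimpleModule B (N ⧸ m) := isSimpleModule_iff_isCoatom.mpr hm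
  obtain ⟨q, hq, ⟨e⟩⟩ := isSimpleModule_iff_quot_maximal.mp hs
  exact ⟨q, hq, e.toLinearMap ∘ₗ m.mkQ, e.surjective.comp m.mkQ_surjective⟩

variable {P Q : Type u} [AddCommGroup P] [AddCommGroup Q] [Module B P] [Module B Q]

/-- A linear map into a finite module is surjective if every functional to a simple module that
kills its image is zero. -/
theorem surjective_of_forall_maximal (θ : P →ₗ[B] Q) [Module.Finite B Q]
    (h : ∀ q : Ideal B, q.IsMaximal → ∀ g : Q →ₗ[B] B ⧸ q, g ∘ₗ θ = 0 → g = 0) :
    Function.Surjective θ := by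
  rw [← LinearMap.range_eq_top]
  by_contra hne
  have hnt : Nontrivial (Q ⧸ LinearMap.range θ) :=
    Submodule.Quotient.nontrivial_iff.mpr hne
  obtain ⟨q, hq, g, hg⟩ := exists_surjective_to_quotient_maximal (B := B) (Q ⧸ LinearMap.range θ)
  have h0 : (g ∘ₗ (LinearMap.range θ).mkQ) ∘ₗ θ = 0 := by
    ext x
    simp only [LinearMap.comp_apply, LinearMap.zero_apply]
    have : (LinearMap.range θ).mkQ (θ x) = 0 := by
      rw [Submodule.mkQ_apply, Submodule.Quotient.mk_eq_zero]
      exact LinearMap.mem_range_self θ x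
    rw [this, map_zero]
  have h1 := h q hq _ h0
  have hq' : Nontrivial (B ⧸ q) := Ideal.Quotient.nontrivial_iff.mpr hq.ne_top
  obtain ⟨y, hy⟩ := exists_ne (0 : B ⧸ q)
  obtain ⟨x, rfl⟩ := hg y
  obtain ⟨x', rfl⟩ := (LinearMap.range θ).mkQ_surjective x
  apply hy
  have := congrArg (fun l : Q →ₗ[B] B ⧸ q => l x') h1
  simpa using this

/-- A surjection from a finite module onto a projective module is injective if every functional to
a simple module factors through it. -/
theorem injective_of_forall_maximal (θ : P →ₗ[B] Q) [Module.Finite B P] [Module.Projective B Q]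
    (hs : Function.Surjective θ)
    (h : ∀ q : Ideal B, q.IsMaximal → ∀ g : P →ₗ[B] B ⧸ q, ∃ g' : Q →ₗ[B] B ⧸ q, g' ∘ₗ θ = g) :
    Function.Injective θ := by
  obtain ⟨σ, hσ⟩ := Module.projective_lifting_property θ LinearMap.id hs
  -- the projection onto the kernel
  let π : P →ₗ[B] LinearMap.ker θ :=
    LinearMap.codRestrict (LinearMap.ker θ) (LinearMap.id - σ ∘ₗ θ) (by
      intro x
      rw [LinearMap.mem_ker, LinearMap.sub_apply, map_sub, LinearMap.id_apply,
        LinearMap.comp_apply]
      have := congrArg (fun l : Q →ₗ[B] Q => l (θ x)) hσ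
      simp only [LinearMap.comp_apply, LinearMap.id_apply] at this
      rw [this, sub_self])
  have hπ : ∀ x : LinearMap.ker θ, π x = x := by
    intro x
    apply Subtype.ext
    simp only [π, LinearMap.codRestrict_apply, LinearMap.sub_apply, LinearMap.id_apply,
      LinearMap.comp_apply]
    rw [LinearMap.mem_ker.mp x.2, map_zero, sub_zero]
  have hfin : Module.Finite B (LinearMap.ker θ) :=
    Module.Finite.of_surjective π (fun x => ⟨x, hπ x⟩)
  rw [← LinearMap.ker_eq_bot]
  by_contra hne
  have hnt : Nontrivial (LinearMap.ker θ) := Submodule.nontrivial_iff_ne_bot.mpr hne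
  obtain ⟨q, hq, g₀, hg₀⟩ := exists_surjective_to_quotient_maximal (B := B) (LinearMap.ker θ)
  obtain ⟨g', hg'⟩ := h q hq (g₀ ∘ₗ π)
  have hq' : Nontrivial (B ⧸ q) := Ideal.Quotient.nontrivial_iff.mpr hq.ne_top
  obtain ⟨y, hy⟩ := exists_ne (0 : B ⧸ q)
  obtain ⟨x, rfl⟩ := hg₀ y
  apply hy
  have := congrArg (fun l : P →ₗ[B] B ⧸ q => l x.1) hg'
  simp only [LinearMap.comp_apply] at this
  rw [hπ x, LinearMap.mem_ker.mp x.2, map_zero] at this
  exact this.symm

end LinAlg


section Main

open KaehlerDifferential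

variable (K B' B : Type u) [CommRing K] [CommRing B'] [CommRing B] [Algebra K B'] [Algebra K B]
  [Algebra B' B] [IsScalarTower K B' B]

/-- **Étaleness criterion via derivations into residue fields.** -/
theorem formallyEtale_of_bijective_compAlgebraMap [Algebra.FormallySmooth K B]
    [Module.Finite B Ω[B⁄K]] [Module.Finite B' Ω[B'⁄K]]
    (h : ∀ q : Ideal B, q.IsMaximal →
      Function.Bijective (fun δ : Derivation K B (B ⧸ q) => δ.compAlgebraMap B')) :
    Algebra.FormallyEtale B' B := by
  have key : ∀ (q : Ideal B) (g : Ω[B⁄K] →ₗ[B] B ⧸ q) (b' : B'),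
      (g ∘ₗ mapBaseChange K B' B) ((1 : B) ⊗ₜ[B'] D K B' b') =
        ((linearMapEquivDerivation K B g).compAlgebraMap B') b' := by
    intro q g b'
    simp [mapBaseChange_tmul]
  -- agreement on the generators `1 ⊗ D b'` suffices
  have hext : ∀ (q : Ideal B) (g₁ g₂ : B ⊗[B'] Ω[B'⁄K] →ₗ[B] B ⧸ q),
      (∀ b' : B', g₁ ((1 : B) ⊗ₜ[B'] D K B' b') = g₂ ((1 : B) ⊗ₜ[B'] D K B' b')) → g₁ = g₂ := by
    intro q g₁ g₂ hg
    apply (LinearMap.liftBaseChangeEquiv (R := B') (A := B) (M := Ω[B'⁄K]) (N := B ⧸ q)).symm.injective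
    apply (linearMapEquivDerivation K B').injective
    ext b'
    exact hg b'
  have hsurj : Function.Surjective (mapBaseChange K B' B) := by
    apply surjective_of_forall_maximal
    intro q hq g hg
    have h0 : (linearMapEquivDerivation K B g).compAlgebraMap B' =
        (linearMapEquivDerivation K B (0 : Ω[B⁄K] →ₗ[B] B ⧸ q)).compAlgebraMap B' := by
      ext b'
      rw [← key, ← key, hg]
      simp
    have := (h q hq).1 h0
    exact (linearMapEquivDerivation K B).injective this
  have hinj : Function.Injective (mapBaseChange K B' B) := by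
    apply injective_of_forall_maximal _ hsurj
    intro q hq g
    -- the derivation of `B'` attached to `g`
    let l : Ω[B'⁄K] →ₗ[B'] B ⧸ q :=
      (LinearMap.liftBaseChangeEquiv (R := B') (A := B) (M := Ω[B'⁄K]) (N := B ⧸ q)).symm g
    obtain ⟨δ, hδ⟩ := (h q hq).2 (linearMapEquivDerivation K B' l)
    refine ⟨(linearMapEquivDerivation K B).symm δ, ?_⟩
    apply hext
    intro b'
    rw [key, LinearEquiv.apply_symm_apply]
    have := congrArg (fun d : Derivation K B' (B ⧸ q) => d b') hδ
    simp only at this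
    rw [this]
    simp [l, LinearMap.liftBaseChangeEquiv]
    rfl
  refine ⟨?_, ?_⟩
  · -- `Ω[B/B'] = 0`
    have hex := exact_mapBaseChange_map K B' B
    have hz : ∀ x : Ω[B⁄K], KaehlerDifferential.map K B' B B x = 0 := by
      intro x
      obtain ⟨y, rfl⟩ := hsurj x
      exact hex.apply_apply_eq_zero y
    refine ⟨fun a b => ?_⟩
    obtain ⟨a', rfl⟩ := KaehlerDifferential.map_surjective K B' B a
    obtain ⟨b'', rfl⟩ := KaehlerDifferential.map_surjective K B' B b
    rw [hz, hz]
  · -- `H¹(L_{B/B'}) = 0`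
    have hex1 := Algebra.H1Cotangent.exact_map_δ K B' B
    have hex2 := Algebra.H1Cotangent.exact_δ_mapBaseChange K B' B
    have hδ0 : ∀ x, Algebra.H1Cotangent.δ K B' B x = 0 := by
      intro x
      apply hinj
      rw [map_zero]
      exact hex2.apply_apply_eq_zero x
    refine ⟨fun a b => ?_⟩
    have ha : a - b = 0 := by
      have h1 : Algebra.H1Cotangent.δ K B' B (a - b) = 0 := hδ0 _
      obtain ⟨y, hy⟩ := (hex1 (a - b)).mp h1
      rw [← hy, Subsingleton.elim y 0, map_zero]
    exact sub_eq_zero.mp ha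

end Main

end Fermat.Agent.JAC.AV.EtaleCrit66
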