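/-
Program JAC, S26 track, chapter AV (helper66): derivations into a residue field `κ ≅ K` versus
`K`-algebra maps into the dual numbers `K[ε]`, and the étaleness criterion in terms of unique
lifting of `K[ε]`-points.
-/
import Fermat.Agent.JAC.AV.EtaleCrit66

set_option autoImplicit false

universe u

namespace Fermat.Agent.JAC.AV.DualLift66

open Fermat.Agent.JAC.AV.EtaleCrit66

section Dict

variable {K κ : Type u} [CommRing K] [CommRing κ] [Algebra K κ]
variable {C : Type u} [CommRing C] [Algebra K C] [Module C κ] [IsScalarTower K C κ]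

/-- The `K`-algebra map `C → K[ε]` attached to a derivation `C → κ`, where `κ ≅ K` and `C` acts on
`κ` through `π : C → κ`. -/
def toDual (π : C →ₐ[K] κ) (hπ : ∀ (c : C) (y : κ), c • y = π c * y) (e : K ≃ₐ[K] κ)
    (δ : Derivation K C κ) : C →ₐ[K] TrivSqZeroExt K K where
  toFun c := (e.symm (π c), e.symm (δ c))
  map_one' := by
    apply TrivSqZeroExt.ext
    · simp
    · simp
  map_mul' a b := by
    apply TrivSqZeroExt.ext
    · simp
    · simp only [Derivation.leibniz, hπ, map_add, map_mul, TrivSqZeroExt.snd_mul,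
        TrivSqZeroExt.fst_mk, TrivSqZeroExt.snd_mk, smul_eq_mul, MulOpposite.smul_eq_mul_unop,
        MulOpposite.unop_op]
      ring
  map_zero' := by
    apply TrivSqZeroExt.ext
    · simp
    · simp
  map_add' a b := by
    apply TrivSqZeroExt.ext
    · simp
    · simp
  commutes' r := by
    apply TrivSqZeroExt.ext
    · simp [TrivSqZeroExt.algebraMap_eq_inl]
    · simp [TrivSqZeroExt.algebraMap_eq_inl]

@[simp] theorem fst_toDual (π : C →ₐ[K] κ) (hπ : ∀ (c : C) (y : κ), c • y = π c * y)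
    (e : K ≃ₐ[K] κ) (δ : Derivation K C κ) (c : C) :
    (toDual π hπ e δ c).fst = e.symm (π c) := rfl

@[simp] theorem snd_toDual (π : C →ₐ[K] κ) (hπ : ∀ (c : C) (y : κ), c • y = π c * y)
    (e : K ≃ₐ[K] κ) (δ : Derivation K C κ) (c : C) :
    (toDual π hπ e δ c).snd = e.symm (δ c) := rfl

/-- The derivation `C → κ` attached to a `K`-algebra map `C → K[ε]` lifting `e⁻¹ ∘ π`. -/
def ofDual (π : C →ₐ[K] κ) (hπ : ∀ (c : C) (y : κ), c • y = π c * y) (e : K ≃ₐ[K] κ)
    (ψ : C →ₐ[K] TrivSqZeroExt K K) (hψ : ∀ c, (ψ c).fst = e.symm (π c)) :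
    Derivation K C κ where
  toLinearMap :=
    e.toLinearMap ∘ₗ (TrivSqZeroExt.sndHom K K) ∘ₗ ψ.toLinearMap
  map_one_eq_zero' := by
    show e (ψ 1).snd = 0
    simp
  leibniz' a b := by
    show e (ψ (a * b)).snd = a • e (ψ b).snd + b • e (ψ a).snd
    rw [map_mul, TrivSqZeroExt.snd_mul, hψ, hψ, hπ, hπ, map_add, smul_eq_mul,
      MulOpposite.smul_eq_mul_unop, MulOpposite.unop_op, map_mul, map_mul,
      AlgEquiv.apply_symm_apply, AlgEquiv.apply_symm_apply]
    ring

@[simp] theorem ofDual_apply (π : C →ₐ[K] κ) (hπ : ∀ (c : C) (y : κ), c • y = π c * y)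
    (e : K ≃ₐ[K] κ) (ψ : C →ₐ[K] TrivSqZeroExt K K) (hψ : ∀ c, (ψ c).fst = e.symm (π c))
    (c : C) : ofDual π hπ e ψ hψ c = e (ψ c).snd := rfl

end Dict


section Criterion

open KaehlerDifferential

variable (K B' B : Type u) [Field K] [CommRing B'] [CommRing B] [Algebra K B'] [Algebra K B]
  [Algebra B' B] [IsScalarTower K B' B]

/-- **Étaleness from unique lifting of `K[ε]`-points** (all closed points of `B` being `K`-rational,
`B` smooth over `K`). -/
theorem formallyEtale_of_dual_lifts [Algebra.FormallySmooth K B]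
    [Module.Finite B Ω[B⁄K]] [Module.Finite B' Ω[B'⁄K]]
    (hpts : ∀ q : Ideal B, q.IsMaximal → Function.Bijective (algebraMap K (B ⧸ q)))
    (hUL : ∀ (ev : B →ₐ[K] K) (ψ' : B' →ₐ[K] TrivSqZeroExt K K),
      (∀ b', (ψ' b').fst = ev (algebraMap B' B b')) →
      ∃! ψ : B →ₐ[K] TrivSqZeroExt K K,
        (∀ b, (ψ b).fst = ev b) ∧ ∀ b', ψ (algebraMap B' B b') = ψ' b') :
    Algebra.FormallyEtale B' B := by
  apply formallyEtale_of_bijective_compAlgebraMap K B' B
  intro q hq
  let e : K ≃ₐ[K] (B ⧸ q) := AlgEquiv.ofBijective (Algebra.ofId K (B ⧸ q)) (hpts q hq)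
  let πB : B →ₐ[K] B ⧸ q := Ideal.Quotient.mkₐ K q
  have hπB : ∀ (c : B) (y : B ⧸ q), c • y = πB c * y := fun c y => by
    rw [Algebra.smul_def]; rfl
  let πB' : B' →ₐ[K] B ⧸ q := πB.comp (IsScalarTower.toAlgHom K B' B)
  have hπB' : ∀ (c : B') (y : B ⧸ q), c • y = πB' c * y := fun c y => by
    rw [← algebraMap_smul B c y, hπB]; rfl
  let ev : B →ₐ[K] K := e.symm.toAlgHom.comp πB
  constructor
  · intro δ₁ δ₂ h12
    have h12' : ∀ b' : B', δ₁ (algebraMap B' B b') = δ₂ (algebraMap B' B b') := fun b' =>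
      congrArg (fun d : Derivation K B' (B ⧸ q) => d b') h12
    obtain ⟨ψ, -, huniq⟩ := hUL ev (toDual πB' hπB' e (δ₁.compAlgebraMap B')) (fun b' => rfl)
    have h1 := huniq (toDual πB hπB e δ₁) ⟨fun b => rfl, fun b' => rfl⟩
    have h2 := huniq (toDual πB hπB e δ₂) ⟨fun b => rfl, fun b' => by
      apply TrivSqZeroExt.ext
      · rfl
      · show e.symm (δ₂ (algebraMap B' B b')) = e.symm (δ₁ (algebraMap B' B b'))
        rw [h12']⟩
    ext b
    have := congrArg (fun φ : B →ₐ[K] TrivSqZeroExt K K => (φ b).snd) (h1.trans h2.symm)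
    simp only [snd_toDual] at this
    exact e.symm.injective this
  · intro δ'
    obtain ⟨ψ, ⟨hψ1, hψ2⟩, -⟩ := hUL ev (toDual πB' hπB' e δ') (fun b' => rfl)
    refine ⟨ofDual πB hπB e ψ hψ1, ?_⟩
    ext b'
    show e (ψ (algebraMap B' B b')).snd = δ' b'
    rw [hψ2, snd_toDual, AlgEquiv.apply_symm_apply]

end Criterion

end Fermat.Agent.JAC.AV.DualLift66
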