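/-
Program JAC, S26 track, chapter AV (helper66): the abstract Eckmann–Hilton core.

`G` = points with values in the dual numbers, `G₂` = points with values in `K[ε₁,ε₂]/(ε₁,ε₂)²`,
`br a` = the endomorphism induced by `ε ↦ a ε`, `z = br 0`.  From functoriality and joint
injectivity of the two projections `G₂ → G` we get
`br (a + b) v * z v = br a v * br b v`, hence `v ^ (n+1) = br (n+1) v * (z v) ^ n`, and the
`(n+1)`-st power map is bijective between the fibres of `z` when `n + 1` is invertible.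
Pure group theory (Mathlib only).
-/
import Mathlib

set_option autoImplicit false

namespace Fermat.Agent.JAC.AV.EHCore66

/-- The data and identities coming from the functor of points on `K[ε]` and `K[ε₁,ε₂]`. -/
structure EHData (S G G₂ : Type*) [Semiring S] [CommGroup G] [Group G₂] where
  br : S → G →* G
  pair : S → S → G →* G₂
  p₁ : G₂ →* G
  p₂ : G₂ →* G
  s : G₂ →* G
  i₁ : G →* G₂
  i₂ : G →* G₂
  p₁_pair : ∀ a b v, p₁ (pair a b v) = br a v
  p₂_pair : ∀ a b v, p₂ (pair a b v) = br b v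
  s_pair : ∀ a b v, s (pair a b v) = br (a + b) v
  p₁_i₁ : ∀ v, p₁ (i₁ v) = v
  p₂_i₁ : ∀ v, p₂ (i₁ v) = br 0 v
  p₁_i₂ : ∀ v, p₁ (i₂ v) = br 0 v
  p₂_i₂ : ∀ v, p₂ (i₂ v) = v
  s_i₁ : ∀ v, s (i₁ v) = v
  s_i₂ : ∀ v, s (i₂ v) = v
  joint_inj : ∀ u u' : G₂, p₁ u = p₁ u' → p₂ u = p₂ u' → u = u'
  br_br : ∀ a b v, br a (br b v) = br (a * b) v
  br_one : ∀ v, br 1 v = v

namespace EHData

variable {S G G₂ : Type*} [Semiring S] [CommGroup G] [Group G₂] (D : EHData S G G₂)

/-- The "zero section composed with the projection". -/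
def z : G →* G := D.br 0

theorem z_br (a : S) (v : G) : D.z (D.br a v) = D.z v := by
  unfold z
  rw [D.br_br, zero_mul]

theorem br_z (a : S) (v : G) : D.br a (D.z v) = D.z v := by
  unfold z
  rw [D.br_br, mul_zero]

theorem z_z (v : G) : D.z (D.z v) = D.z v := D.z_br 0 v

/-- **Eckmann–Hilton**: the group law is additive in the scalar. -/
theorem br_add (a b : S) (v : G) : D.br (a + b) v * D.z v = D.br a v * D.br b v := by
  have hw : D.pair a b v * D.pair 0 0 v = D.i₁ (D.br a v) * D.i₂ (D.br b v) := by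
    apply D.joint_inj
    · rw [map_mul, map_mul, D.p₁_pair, D.p₁_pair, D.p₁_i₁, D.p₁_i₂]
      show _ = D.br a v * D.z (D.br b v)
      rw [D.z_br]
      rfl
    · rw [map_mul, map_mul, D.p₂_pair, D.p₂_pair, D.p₂_i₁, D.p₂_i₂]
      show _ = D.z (D.br a v) * D.br b v
      rw [D.z_br, mul_comm]
      rfl
  have := congrArg D.s hw
  rw [map_mul, map_mul, D.s_pair, D.s_pair, D.s_i₁, D.s_i₂, add_zero] at this
  exact this

/-- The `(n+1)`-st power in terms of the scalar action. -/
theorem pow_succ_eq (n : ℕ) (v : G) : v ^ (n + 1) = D.br ((n : S) + 1) v * D.z v ^ n := by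
  induction n with
  | zero => simp [D.br_one]
  | succ n ih =>
    rw [pow_succ, ih]
    have h := D.br_add ((n : S) + 1) 1 v
    rw [D.br_one] at h
    rw [pow_succ]
    push_cast
    calc D.br ((n : S) + 1) v * D.z v ^ n * v
        = (D.br ((n : S) + 1) v * v) * D.z v ^ n := by rw [mul_right_comm]
      _ = (D.br ((n : S) + 1 + 1) v * D.z v) * D.z v ^ n := by rw [h]
      _ = D.br ((n : S) + 1 + 1) v * (D.z v ^ n * D.z v) := by
          rw [mul_assoc, mul_comm (D.z v) (D.z v ^ n)]

/-- Injectivity of the `(n+1)`-st power map on each fibre of `z`, when `n+1` is invertible. -/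
theorem pow_succ_injOn (n : ℕ) (m : S) (hm : m * ((n : S) + 1) = 1) {v v' : G}
    (hz : D.z v = D.z v') (h : v ^ (n + 1) = v' ^ (n + 1)) : v = v' := by
  rw [D.pow_succ_eq, D.pow_succ_eq, hz] at h
  have h' := mul_right_cancel h
  have := congrArg (D.br m) h'
  rwa [D.br_br, D.br_br, hm, D.br_one, D.br_one] at this

/-- Surjectivity of the `(n+1)`-st power map between fibres of `z`, when `n+1` is invertible. -/
theorem exists_pow_succ_eq (n : ℕ) (m : S) (hm : ((n : S) + 1) * m = 1) (c w : G)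
    (hc : D.z c = c) (hw : D.z w = c ^ (n + 1)) :
    ∃ v : G, D.z v = c ∧ v ^ (n + 1) = w := by
  have hv' : D.z (w * (c ^ n)⁻¹) = c := by
    rw [map_mul, map_inv, map_pow, hw, hc, pow_succ, mul_comm (c ^ n) c, mul_assoc,
      mul_inv_cancel, mul_one]
  refine ⟨D.br m (w * (c ^ n)⁻¹), ?_, ?_⟩
  · rw [D.z_br, hv']
  · rw [D.pow_succ_eq, D.br_br, hm, D.br_one, D.z_br, hv', inv_mul_cancel_right]

end EHData

end Fermat.Agent.JAC.AV.EHCore66
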