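/-
Program JAC, S26 track, chapter AV (helper66): the tangent bundle calculus of a commutative
relative group law over a field `K`, via points with values in `K[ε]` and `K[ε₁,ε₂]/(ε₁,ε₂)²`.

Main results (`K` a field, `L` commutative, `(n+1 : K) ≠ 0`):
* `pow_succ_inj` : on `A(K[ε])`, two points with the same image in `A(K)` (same `zsec`) and the same
  `(n+1)`-st power are equal;
* `exists_pow_succ_eq` : every `w ∈ A(K[ε])` lying over `c^(n+1)` (`c` constant) is the `(n+1)`-st
  power of a point lying over `c`.
So `[n+1]` induces bijections on all tangent spaces at `K`-points.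
-/
import Fermat.Agent.JAC.AV.Points66
import Fermat.Agent.JAC.AV.JointMono66
import Fermat.Agent.JAC.AV.EHCore66

set_option autoImplicit false

open CategoryTheory CategoryTheory.Limits AlgebraicGeometry NeronModelInfra GoodReductionJacobian

universe u

noncomputable section

namespace Fermat.Agent.JAC.AV.Tangent66

open Fermat.Agent.JAC.AV.Points66 Fermat.Agent.JAC.AV.EHCore66

section OnePoint

variable (K : Type u) [Field K] (M : Type u) [AddCommGroup M] [Module K M] [Module Kᵐᵒᵖ M]
  [IsCentralScalar K M]

/-- A trivial square-zero extension of a field has a unique prime ideal. -/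
theorem primeSpectrum_eq (p q : PrimeSpectrum (TrivSqZeroExt K M)) : p = q := by
  have key : ∀ p : PrimeSpectrum (TrivSqZeroExt K M),
      p.asIdeal = RingHom.ker (TrivSqZeroExt.fstHom K K M).toRingHom := by
    intro p
    ext x
    rw [RingHom.mem_ker]
    constructor
    · intro hx
      by_contra hne
      have hu : IsUnit x := by
        rw [TrivSqZeroExt.isUnit_iff_isUnit_fst]
        exact isUnit_iff_ne_zero.mpr hne
      exact p.isPrime.ne_top (Ideal.eq_top_of_isUnit_mem _ hx hu)
    · intro hx
      have hx' : x.fst = 0 := hx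
      have hsq : x * x = 0 := by
        apply TrivSqZeroExt.ext
        · simp [hx']
        · simp [hx']
      have : x * x ∈ p.asIdeal := by rw [hsq]; exact p.asIdeal.zero_mem
      rcases p.isPrime.mem_or_mem this with h | h <;> exact h
  exact PrimeSpectrum.ext ((key p).trans (key q).symm)

end OnePoint

variable {K : Type u} [Field K] {A : Scheme.{u}} {f : A ⟶ Spec (CommRingCat.of K)}
variable (L : RelativeGroupLaw K f)

/-- The dual numbers `K[ε]`. -/
abbrev Dual (K : Type u) [Field K] := TrivSqZeroExt K K

/-- `K[ε₁,ε₂]/(ε₁,ε₂)²`. -/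
abbrev Dual2 (K : Type u) [Field K] := TrivSqZeroExt K (K × K)

/-- The commutative group structure on points of a commutative group law. -/
@[reducible] def commGroupPtG (hc : L.IsCommutative) (R : Type u) [CommRing R] [Algebra K R] :
    CommGroup (PtG L R) :=
  { instGroupPtG L R with mul_comm := fun x y => hc (specStr K R) x y }

/-- Scalar multiplication by `a` as a linear endomorphism of `K`. -/
def scal (a : K) : K →ₗ[K] K := a • LinearMap.id

variable {L}

theorem map_tmap_map_tmap {M N P : Type u} [AddCommGroup M] [Module K M] [Module Kᵐᵒᵖ M]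
    [IsCentralScalar K M] [AddCommGroup N] [Module K N] [Module Kᵐᵒᵖ N] [IsCentralScalar K N]
    [AddCommGroup P] [Module K P] [Module Kᵐᵒᵖ P] [IsCentralScalar K P]
    (g : N →ₗ[K] P) (h : M →ₗ[K] N) (k : M →ₗ[K] P) (e : g ∘ₗ h = k)
    (v : PtG L (TrivSqZeroExt K M)) :
    PtG.map (TrivSqZeroExt.map g) (PtG.map (TrivSqZeroExt.map h) v) =
      PtG.map (TrivSqZeroExt.map k) v := by
  rw [← PtG.map_comp_apply, ← TrivSqZeroExt.map_comp_map, e]

variable (L)

/-- The Eckmann–Hilton data of a commutative relative group law over a field. -/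
def ehData (hc : L.IsCommutative) :
    letI := commGroupPtG L hc (Dual K)
    EHData K (PtG L (Dual K)) (PtG L (Dual2 K)) :=
  letI := commGroupPtG L hc (Dual K)
  { br := fun a => PtG.map (TrivSqZeroExt.map (scal a))
    pair := fun a b => PtG.map (TrivSqZeroExt.map ((scal a).prod (scal b)))
    p₁ := PtG.map (TrivSqZeroExt.map (LinearMap.fst K K K))
    p₂ := PtG.map (TrivSqZeroExt.map (LinearMap.snd K K K))
    s := PtG.map (TrivSqZeroExt.map (LinearMap.coprod LinearMap.id LinearMap.id))
    i₁ := PtG.map (TrivSqZeroExt.map (LinearMap.inl K K K))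
    i₂ := PtG.map (TrivSqZeroExt.map (LinearMap.inr K K K))
    p₁_pair := fun a b v => map_tmap_map_tmap _ _ _ (by ext; simp [scal]) v
    p₂_pair := fun a b v => map_tmap_map_tmap _ _ _ (by ext; simp [scal]) v
    s_pair := fun a b v => map_tmap_map_tmap _ _ _ (by ext; simp [scal]) v
    p₁_i₁ := fun v => by
      rw [map_tmap_map_tmap _ _ LinearMap.id (by ext; simp), TrivSqZeroExt.map_id,
        PtG.map_id_apply]
    p₂_i₁ := fun v => map_tmap_map_tmap _ _ _ (by ext; simp [scal]) v
    p₁_i₂ := fun v => map_tmap_map_tmap _ _ _ (by ext; simp [scal]) v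
    p₂_i₂ := fun v => by
      rw [map_tmap_map_tmap _ _ LinearMap.id (by ext; simp), TrivSqZeroExt.map_id,
        PtG.map_id_apply]
    s_i₁ := fun v => by
      rw [map_tmap_map_tmap _ _ LinearMap.id (by ext; simp), TrivSqZeroExt.map_id,
        PtG.map_id_apply]
    s_i₂ := fun v => by
      rw [map_tmap_map_tmap _ _ LinearMap.id (by ext; simp), TrivSqZeroExt.map_id,
        PtG.map_id_apply]
    joint_inj := fun u u' h₁ h₂ => by
      apply PtG.ext
      refine JointMono66.hom_ext_of_jointly_injective
        (R := CommRingCat.of (Dual2 K)) (R₁ := CommRingCat.of (Dual K))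
        (R₂ := CommRingCat.of (Dual K)) (primeSpectrum_eq K (K × K))
        (CommRingCat.ofHom (TrivSqZeroExt.map (LinearMap.fst K K K)).toRingHom)
        (CommRingCat.ofHom (TrivSqZeroExt.map (LinearMap.snd K K K)).toRingHom)
        ?_ u.hom u'.hom (congrArg PtG.hom h₁) (congrArg PtG.hom h₂)
      intro r r' e₁ e₂
      have e₁' : TrivSqZeroExt.map (LinearMap.fst K K K) r =
          TrivSqZeroExt.map (LinearMap.fst K K K) r' := e₁
      have e₂' : TrivSqZeroExt.map (LinearMap.snd K K K) r =
          TrivSqZeroExt.map (LinearMap.snd K K K) r' := e₂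
      apply TrivSqZeroExt.ext
      · have := congrArg TrivSqZeroExt.fst e₁'
        simpa using this
      · have h1 := congrArg TrivSqZeroExt.snd e₁'
        have h2 := congrArg TrivSqZeroExt.snd e₂'
        simp only [TrivSqZeroExt.snd_map, LinearMap.fst_apply, LinearMap.snd_apply] at h1 h2
        exact Prod.ext h1 h2
    br_br := fun a b v => map_tmap_map_tmap _ _ _ (by ext; simp [scal]) v
    br_one := fun v => by
      have : scal (1 : K) = LinearMap.id := by ext; simp [scal]
      rw [this, TrivSqZeroExt.map_id, PtG.map_id_apply] }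


/-- Reduction `A(K[ε]) → A(K)`. -/
def rho : PtG L (Dual K) →* PtG L K := PtG.map (TrivSqZeroExt.fstHom K K K)

/-- The constant points `A(K) → A(K[ε])`. -/
def iota : PtG L K →* PtG L (Dual K) := PtG.map (TrivSqZeroExt.inlAlgHom K K K)

theorem rho_iota (x : PtG L K) : rho L (iota L x) = x := by
  unfold rho iota
  rw [← PtG.map_comp_apply]
  have : (TrivSqZeroExt.fstHom K K K).comp (TrivSqZeroExt.inlAlgHom K K K) = AlgHom.id K K := by
    ext
  rw [this, PtG.map_id_apply]

theorem z_eq (hc : L.IsCommutative) (v : PtG L (Dual K)) :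
    letI := commGroupPtG L hc (Dual K)
    (ehData L hc).z v = iota L (rho L v) := by
  unfold rho iota
  rw [← PtG.map_comp_apply]
  have : TrivSqZeroExt.map (scal (0 : K)) =
      (TrivSqZeroExt.inlAlgHom K K K).comp (TrivSqZeroExt.fstHom K K K) := by
    refine AlgHom.ext fun x => TrivSqZeroExt.ext ?_ ?_
    · simp
    · simp [scal]
  show PtG.map (TrivSqZeroExt.map (scal (0 : K))) v = _
  rw [this]

theorem iota_injective : Function.Injective (iota L) :=
  Function.LeftInverse.injective (rho_iota L)

/-- **Tangent injectivity**: two `K[ε]`-points over the same `K`-point with the same `(n+1)`-st power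
are equal, if `n + 1` is invertible in `K`. -/
theorem pow_succ_inj (hc : L.IsCommutative) (n : ℕ) (hn : ((n : K) + 1) ≠ 0)
    {v v' : PtG L (Dual K)} (hρ : rho L v = rho L v') (h : v ^ (n + 1) = v' ^ (n + 1)) :
    v = v' := by
  let _ := commGroupPtG L hc (Dual K)
  refine (ehData L hc).pow_succ_injOn n ((n : K) + 1)⁻¹ (inv_mul_cancel₀ hn) ?_ h
  rw [z_eq, z_eq, hρ]

/-- **Tangent surjectivity**: every `K[ε]`-point over `x ^ (n+1)` is the `(n+1)`-st power of a
`K[ε]`-point over `x`, if `n + 1` is invertible in `K`. -/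
theorem exists_pow_succ_eq (hc : L.IsCommutative) (n : ℕ) (hn : ((n : K) + 1) ≠ 0)
    (x : PtG L K) (w : PtG L (Dual K)) (hw : rho L w = x ^ (n + 1)) :
    ∃ v : PtG L (Dual K), rho L v = x ∧ v ^ (n + 1) = w := by
  let _ := commGroupPtG L hc (Dual K)
  obtain ⟨v, hv, hvw⟩ := (ehData L hc).exists_pow_succ_eq n ((n : K) + 1)⁻¹ (mul_inv_cancel₀ hn)
    (iota L x) w (by rw [z_eq, rho_iota]) (by rw [z_eq, hw, map_pow])
  refine ⟨v, ?_, hvw⟩
  rw [z_eq] at hv
  exact iota_injective L hv

end Fermat.Agent.JAC.AV.Tangent66
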