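/-
Program JAC, S26 track, chapter AV (helper66): multiplication by `n` is étale.

`K` algebraically closed, `f : A ⟶ Spec K` smooth, `L` a commutative relative group law,
`(n : K) ≠ 0`.  Then `L.schemeNsmul n : A ⟶ A` is étale.
-/
import Fermat.Agent.JAC.AV.Charts66
import Fermat.Agent.JAC.AV.Tangent66
import Fermat.Agent.JAC.AV.DualLift66

set_option autoImplicit false

open CategoryTheory CategoryTheory.Limits AlgebraicGeometry NeronModelInfra GoodReductionJacobian

universe u

noncomputable section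

namespace Fermat.Agent.JAC.AV.NsmulEtale66

open Fermat.Agent.JAC.AV.Points66 Fermat.Agent.JAC.AV.Charts66 Fermat.Agent.JAC.AV.Tangent66
  Fermat.Agent.JAC.AV.DualLift66

variable {K : Type u} [Field K] {A : Scheme.{u}} {f : A ⟶ Spec (CommRingCat.of K)}

/-- Coordinate rings of affine opens of a smooth `K`-scheme are smooth `K`-algebras. -/
theorem smooth_algebraΓ [Smooth f] {U : A.Opens} (hU : IsAffineOpen U) :
    letI := algebraΓ f U
    Algebra.Smooth K Γ(A, U) := by
  letI := algebraΓ f U
  have h1 : (f.appLE ⊤ U le_top).hom.Smooth :=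
    Smooth.smooth_appLE f (isAffineOpen_top _) hU le_top
  have h2 : (kToΓ f U).hom.Smooth := by
    unfold kToΓ
    exact (RingHom.Smooth.respectsIso.cancel_left_isIso
      (Scheme.ΓSpecIso (CommRingCat.of K)).inv (f.appLE ⊤ U le_top)).mpr h1
  exact h2

/-- Closed points of a finite type algebra over an algebraically closed field are rational. -/
theorem bijective_algebraMap_quotient [IsAlgClosed K] (B : Type u) [CommRing B] [Algebra K B]
    [Algebra.FiniteType K B] (q : Ideal B) (hq : q.IsMaximal) :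
    Function.Bijective (algebraMap K (B ⧸ q)) := by
  letI : Field (B ⧸ q) := Ideal.Quotient.field q
  haveI : Module.Finite K (B ⧸ q) := finite_of_finite_type_of_isJacobsonRing K (B ⧸ q)
  exact IsAlgClosed.algebraMap_bijective_of_isIntegral


variable (L : RelativeGroupLaw K f)

/-- The `(k+1)`-st power of a chart point is the chart point of the composite algebra map. -/
theorem pow_ptOfAlgHom (k : ℕ) {U V : A.Opens} (hU : IsAffineOpen U) (hV : IsAffineOpen V)
    (e : V ≤ (L.schemeNsmul (k + 1)) ⁻¹ᵁ U) {R : Type u} [CommRing R] [Algebra K R]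
    (ψ : letI := algebraΓ f V; Γ(A, V) →ₐ[K] R)
    (ψ' : letI := algebraΓ f U; Γ(A, U) →ₐ[K] R)
    (h : ∀ b, ψ' b = ψ (((L.schemeNsmul (k + 1)).appLE U V e).hom b)) :
    (ptOfAlgHom L hV ψ) ^ (k + 1) = ptOfAlgHom L hU ψ' := by
  apply PtG.ext
  rw [PtG.pow_hom, ptOfAlgHom_hom, ptOfAlgHom_hom, Category.assoc,
    ← IsAffineOpen.SpecMap_appLE_fromSpec (L.schemeNsmul (k + 1)) hU hV e, ← Category.assoc,
    ← Spec.map_comp]
  congr 2
  ext b
  exact (h b).symm

/-- **Multiplication by `n` is étale on affine charts.** -/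
theorem etale_appLE [IsAlgClosed K] [Smooth f] (hc : L.IsCommutative)
    (k : ℕ) (hk : ((k : K) + 1) ≠ 0) {U : A.Opens} (hU : IsAffineOpen U) {V : A.Opens}
    (hV : IsAffineOpen V) (e : V ≤ (L.schemeNsmul (k + 1)) ⁻¹ᵁ U) :
    ((L.schemeNsmul (k + 1)).appLE U V e).hom.Etale := by
  have hφf : L.schemeNsmul (k + 1) ≫ f = f := L.schemeNsmul_over (k + 1)
  letI aU := algebraΓ f U
  letI aV := algebraΓ f V
  letI aUV : Algebra Γ(A, U) Γ(A, V) := ((L.schemeNsmul (k + 1)).appLE U V e).hom.toAlgebra
  haveI : IsScalarTower K Γ(A, U) Γ(A, V) := IsScalarTower.of_algebraMap_eq' (by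
    have := kToΓ_comp_appLE f (L.schemeNsmul (k + 1)) hφf U V e
    exact congrArg CommRingCat.Hom.hom this.symm)
  haveI sV : Algebra.Smooth K Γ(A, V) := smooth_algebraΓ (f := f) hV
  haveI sU : Algebra.Smooth K Γ(A, U) := smooth_algebraΓ (f := f) hU
  show Algebra.Etale Γ(A, U) Γ(A, V)
  haveI : Algebra.FinitePresentation Γ(A, U) Γ(A, V) :=
    Algebra.FinitePresentation.of_restrict_scalars_finitePresentation K _ _
  haveI : Algebra.FormallyEtale Γ(A, U) Γ(A, V) := by
    apply formallyEtale_of_dual_lifts K Γ(A, U) Γ(A, V)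
    · intro q hq
      exact bijective_algebraMap_quotient _ q hq
    · intro ev ψ' hψ'
      have halg : ∀ b' : Γ(A, U), algebraMap Γ(A, U) Γ(A, V) b' =
          ((L.schemeNsmul (k + 1)).appLE U V e).hom b' := fun _ => rfl
      let x : PtG L K := ptOfAlgHom L hV ev
      let w : PtG L (Dual K) := ptOfAlgHom L hU ψ'
      have hw : rho L w = x ^ (k + 1) := by
        show PtG.map (TrivSqZeroExt.fstHom K K K) (ptOfAlgHom L hU ψ') = _
        rw [map_ptOfAlgHom]
        symm
        apply pow_ptOfAlgHom L k hU hV e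
        intro b
        show (ψ' b).fst = _
        rw [hψ' b, halg]
      obtain ⟨v, hv1, hv2⟩ := exists_pow_succ_eq L hc k hk x w hw
      -- the point of `Spec K[ε]`
      obtain ⟨pt⟩ : Nonempty (Spec (CommRingCat.of K)) := inferInstance
      let p₀ : Spec (CommRingCat.of (Dual K)) := (specAlgMap K (TrivSqZeroExt.fstHom K K K)).base pt
      have hp : v.hom.base p₀ ∈ V := by
        have h1 : v.hom.base p₀ = (rho L v).hom.base pt := by
          show _ = (specAlgMap K (TrivSqZeroExt.fstHom K K K) ≫ v.hom).base pt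
          simp [p₀]
        rw [h1, hv1]
        show (Spec.map _ ≫ hV.fromSpec).base pt ∈ V
        have : (Spec.map (CommRingCat.ofHom ev.toRingHom) ≫ hV.fromSpec).base pt ∈
            Set.range hV.fromSpec.base :=
          ⟨(Spec.map (CommRingCat.ofHom ev.toRingHom)).base pt, rfl⟩
        rw [hV.range_fromSpec] at this
        exact this
      obtain ⟨ψ, hψ⟩ := exists_eq_ptOfAlgHom L hV (primeSpectrum_eq K K) v p₀ hp
      have hfst : (TrivSqZeroExt.fstHom K K K).comp ψ = ev := by
        apply ptOfAlgHom_injective L hV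
        rw [← map_ptOfAlgHom, ← hψ]
        exact hv1
      have hcomp : ∀ b', ψ (algebraMap Γ(A, U) Γ(A, V) b') = ψ' b' := by
        have h2 : ptOfAlgHom L hU (ψ.comp (IsScalarTower.toAlgHom K Γ(A, U) Γ(A, V))) =
            ptOfAlgHom L hU ψ' := by
          rw [← pow_ptOfAlgHom L k hU hV e ψ _ (fun b => rfl), ← hψ]
          exact hv2
        intro b'
        exact congrArg (fun g : Γ(A, U) →ₐ[K] Dual K => g b') (ptOfAlgHom_injective L hU _ _ h2)
      refine ⟨ψ, ⟨fun b => congrArg (fun g : Γ(A, V) →ₐ[K] K => g b) hfst, hcomp⟩, ?_⟩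
      rintro ψ₂ ⟨h1', h2'⟩
      apply ptOfAlgHom_injective L hV
      rw [← hψ]
      apply pow_succ_inj L hc k hk
      · show PtG.map (TrivSqZeroExt.fstHom K K K) (ptOfAlgHom L hV ψ₂) = _
        rw [map_ptOfAlgHom, hv1]
        congr 1
        ext b
        exact h1' b
      · rw [hv2]
        apply pow_ptOfAlgHom L k hU hV e
        intro b
        rw [← halg, h2']
  exact ⟨inferInstance, inferInstance⟩

/-- **Multiplication by `n` is étale** for `(n : K) ≠ 0`. -/
theorem etale_schemeNsmul [IsAlgClosed K] [Smooth f] (hc : L.IsCommutative)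
    (n : ℕ) (hn : (n : K) ≠ 0) : Etale (L.schemeNsmul n) := by
  obtain ⟨k, rfl⟩ : ∃ k, n = k + 1 := by
    cases n with
    | zero => exact absurd Nat.cast_zero hn
    | succ k => exact ⟨k, rfl⟩
  have hk : ((k : K) + 1) ≠ 0 := by
    simpa using hn
  exact ⟨fun hU _ hV e => etale_appLE L hc k hk hU hV e⟩

end Fermat.Agent.JAC.AV.NsmulEtale66
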