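/-
Program JAC, S26 track, chapter AV (helper66): multiplication by `n` is a finite étale surjective
morphism of constant rank on an abelian variety over an algebraically closed field.
-/
import Fermat.Agent.JAC.AV.NsmulEtale66

set_option autoImplicit false

open CategoryTheory CategoryTheory.Limits AlgebraicGeometry NeronModelInfra GoodReductionJacobian

universe u

noncomputable section

namespace Fermat.Agent.JAC.AV.Isogeny66

open Fermat.Agent.JAC.AV.NsmulEtale66

/-- Étale morphisms are locally quasi-finite. -/
theorem locallyQuasiFinite_of_etale {X Y : Scheme.{u}} (φ : X ⟶ Y) [Etale φ] :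
    LocallyQuasiFinite φ := by
  refine ⟨fun {U} hU {V} hV e => ?_⟩
  have h := Etale.etale_appLE φ hU hV e
  algebraize [(φ.appLE U V e).hom]
  have : Algebra.Etale Γ(Y, U) Γ(X, V) := h
  show Algebra.QuasiFinite Γ(Y, U) Γ(X, V)
  infer_instance

variable {K : Type u} [Field K] {A : Scheme.{u}} {f : A ⟶ Spec (CommRingCat.of K)}

/-- An endomorphism over `Spec K` of a proper `K`-scheme is proper. -/
theorem isProper_of_over [IsProper f] (φ : A ⟶ A) (hφ : φ ≫ f = f) : IsProper φ := by
  haveI : IsProper (φ ≫ f) := by rw [hφ]; infer_instance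
  exact IsProper.of_comp φ f

/-- A finite type scheme over a field with connected total fibre is connected. -/
theorem connectedSpace_of_bundle (hA : AbelianSchemePropertyBundle K f) : ConnectedSpace A := by
  obtain ⟨s⟩ : Nonempty (Spec (CommRingCat.of K)) := inferInstance
  have h := hA.connectedFibres s
  have huniv : f.base ⁻¹' {s} = Set.univ := by
    ext a
    simp only [Set.mem_preimage, Set.mem_singleton_iff, Set.mem_univ, iff_true]
    exact Subsingleton.elim _ _
  rw [huniv] at h
  exact connectedSpace_iff_univ.mpr h

variable (L : RelativeGroupLaw K f)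

section Main

variable [IsAlgClosed K] (hc : L.IsCommutative) (hA : AbelianSchemePropertyBundle K f)
  (n : ℕ) (hn : (n : K) ≠ 0)

include hc hA hn

theorem isFinite_schemeNsmul : IsFinite (L.schemeNsmul n) := by
  haveI := hA.smooth
  haveI := hA.proper
  haveI := etale_schemeNsmul L hc n hn
  haveI := locallyQuasiFinite_of_etale (L.schemeNsmul n)
  haveI := isProper_of_over (L.schemeNsmul n) (L.schemeNsmul_over n)
  exact IsFinite.of_isProper_of_locallyQuasiFinite _

/-- The rank of `[n]` is constant. -/
theorem finrank_schemeNsmul_const (a b : A) :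
    (L.schemeNsmul n).finrank a = (L.schemeNsmul n).finrank b := by
  haveI := hA.smooth
  haveI := etale_schemeNsmul L hc n hn
  haveI := isFinite_schemeNsmul L hc hA n hn
  haveI := connectedSpace_of_bundle hA
  exact (Scheme.Hom.isLocallyConstant_finrank (L.schemeNsmul n)).apply_eq_of_preconnectedSpace a b

theorem surjective_schemeNsmul : Surjective (L.schemeNsmul n) := by
  haveI := hA.smooth
  haveI := etale_schemeNsmul L hc n hn
  haveI := isFinite_schemeNsmul L hc hA n hn
  rw [← Scheme.Hom.one_le_finrank_iff_surjective]
  intro a
  haveI : Nonempty A := (connectedSpace_of_bundle hA).toNonempty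
  obtain ⟨a₀⟩ := ‹Nonempty A›
  have h1 := Scheme.Hom.one_le_finrank_map (L.schemeNsmul n) a₀
  rw [finrank_schemeNsmul_const L hc hA n hn _ a] at h1
  exact h1

end Main

end Fermat.Agent.JAC.AV.Isogeny66
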