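/-
Program JAC, S26 track, chapter AV (helper66): the group of `K`-points of an abelian variety over an
algebraically closed field is `n`-divisible for `(n : K) ≠ 0`, and the torsion counts are
multiplicative.
-/
import Fermat.Agent.JAC.AV.Isogeny66

set_option autoImplicit false

open CategoryTheory CategoryTheory.Limits AlgebraicGeometry NeronModelInfra GoodReductionJacobian

universe u

noncomputable section

namespace Fermat.Agent.JAC.AV.Divisible66

open Fermat.Agent.JAC.AV.Points66 Fermat.Agent.JAC.AV.Isogeny66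

variable {K : Type u} [Field K] {A : Scheme.{u}} {f : A ⟶ Spec (CommRingCat.of K)}
variable (L : RelativeGroupLaw K f)

/-- **Divisibility of `A(K)`.** -/
theorem exists_pow_eq [IsAlgClosed K] (hc : L.IsCommutative) (hA : AbelianSchemePropertyBundle K f)
    (n : ℕ) (hn : (n : K) ≠ 0) (y : PtG L K) : ∃ x : PtG L K, x ^ n = y := by
  haveI := isFinite_schemeNsmul L hc hA n hn
  haveI := surjective_schemeNsmul L hc hA n hn
  let P : Scheme.{u} := pullback (L.schemeNsmul n) y.hom
  let g : P ⟶ Spec (CommRingCat.of K) := pullback.snd (L.schemeNsmul n) y.hom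
  haveI : JacobsonSpace P := LocallyOfFiniteType.jacobsonSpace g
  obtain ⟨s₀⟩ : Nonempty (Spec (CommRingCat.of K)) := inferInstance
  obtain ⟨p, -⟩ := g.surjective s₀
  obtain ⟨p', -, hp'⟩ := nonempty_inter_closedPoints (X := P)
    (Z := Set.univ) ⟨p, trivial⟩ isOpen_univ.isLocallyClosed
  let s := pointOfClosedPoint g p' hp'
  have hs : s ≫ g = 𝟙 _ := pointOfClosedPoint_comp g p' hp'
  have hx : (s ≫ pullback.fst (L.schemeNsmul n) y.hom) ≫ L.schemeNsmul n = y.hom := by
    rw [Category.assoc, pullback.condition, ← Category.assoc, hs, Category.id_comp]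
  refine ⟨PtG.mk (s ≫ pullback.fst (L.schemeNsmul n) y.hom) ?_, ?_⟩
  · calc (s ≫ pullback.fst (L.schemeNsmul n) y.hom) ≫ f
        = (s ≫ pullback.fst (L.schemeNsmul n) y.hom) ≫ (L.schemeNsmul n ≫ f) := by
          rw [L.schemeNsmul_over n]
      _ = y.hom ≫ f := by rw [← Category.assoc, hx]
      _ = specStr K K := y.hom_over
  · apply PtG.ext
    rw [PtG.pow_hom, PtG.mk_hom, hx]

end Fermat.Agent.JAC.AV.Divisible66
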