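/-
Program JAC, S26 track, chapter AV (helper66): multiplicativity of torsion counts in an
`m`-divisible commutative group (pure group theory), and its application to `A(K)`.
-/
import Fermat.Agent.JAC.AV.Divisible66

set_option autoImplicit false

open CategoryTheory CategoryTheory.Limits AlgebraicGeometry NeronModelInfra GoodReductionJacobian

universe u

noncomputable section

namespace Fermat.Agent.JAC.AV.TorsionCount66

section GroupTheory

variable {G : Type*} [CommGroup G]

/-- In a commutative group on which `x ↦ x ^ m` is surjective,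
`G[m * n] ≃ G[m] × G[n]` (non-canonically). -/
def torsionMulEquiv (m n : ℕ) (hsurj : ∀ y : G, ∃ x : G, x ^ m = y) :
    {x : G // x ^ (m * n) = 1} ≃ {x : G // x ^ m = 1} × {y : G // y ^ n = 1} :=
  let σ : G → G := fun y => (hsurj y).choose
  have hσ : ∀ y, σ y ^ m = y := fun y => (hsurj y).choose_spec
  { toFun := fun x =>
      (⟨x.1 * (σ (x.1 ^ m))⁻¹, by rw [mul_pow, inv_pow, hσ, mul_inv_cancel]⟩,
       ⟨x.1 ^ m, by rw [← pow_mul]; exact x.2⟩)
    invFun := fun p =>
      ⟨p.1.1 * σ p.2.1, by
        rw [mul_pow, pow_mul, pow_mul, p.1.2, one_pow, one_mul, hσ, p.2.2]⟩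
    left_inv := fun x => by
      apply Subtype.ext
      simp only
      have h : (x.1 * (σ (x.1 ^ m))⁻¹ * σ (x.1 ^ m)) = x.1 := inv_mul_cancel_right _ _
      have h2 : (x.1 * (σ (x.1 ^ m))⁻¹) ^ m = 1 := by rw [mul_pow, inv_pow, hσ, mul_inv_cancel]
      exact h
    right_inv := fun p => by
      have h1 : (p.1.1 * σ p.2.1) ^ m = p.2.1 := by
        rw [mul_pow, p.1.2, one_mul, hσ]
      apply Prod.ext
      · apply Subtype.ext
        simp only
        rw [h1, mul_inv_cancel_right]
      · apply Subtype.ext
        exact h1 }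

theorem card_torsion_mul (m n : ℕ) (hsurj : ∀ y : G, ∃ x : G, x ^ m = y) :
    Nat.card {x : G // x ^ (m * n) = 1} =
      Nat.card {x : G // x ^ m = 1} * Nat.card {y : G // y ^ n = 1} := by
  rw [Nat.card_congr (torsionMulEquiv m n hsurj), Nat.card_prod]

end GroupTheory

open Fermat.Agent.JAC.AV.Points66 Fermat.Agent.JAC.AV.Tangent66 Fermat.Agent.JAC.AV.Divisible66

variable {K : Type u} [Field K] {A : Scheme.{u}} {f : A ⟶ Spec (CommRingCat.of K)}
variable (L : RelativeGroupLaw K f)

/-- The number of `n`-torsion `K`-points. -/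
def torsionCard (n : ℕ) : ℕ := Nat.card {x : PtG L K // x ^ n = 1}

/-- **Multiplicativity of the torsion count** on an abelian variety over an algebraically closed
field, for `(m : K) ≠ 0`. -/
theorem torsionCard_mul [IsAlgClosed K] (hc : L.IsCommutative)
    (hA : AbelianSchemePropertyBundle K f) (m n : ℕ) (hm : (m : K) ≠ 0) :
    torsionCard L (m * n) = torsionCard L m * torsionCard L n := by
  letI := commGroupPtG L hc K
  exact card_torsion_mul m n (fun y => exists_pow_eq L hc hA m hm y)

end Fermat.Agent.JAC.AV.TorsionCount66
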