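/-
Program JAC, S26 track, chapter AV (helper66): the number of `n`-torsion `K`-points equals the
rank of `[n]`.
-/
import Fermat.Agent.JAC.AV.TorsionCount66

set_option autoImplicit false

open CategoryTheory CategoryTheory.Limits AlgebraicGeometry NeronModelInfra GoodReductionJacobian

universe u

noncomputable section

namespace Fermat.Agent.JAC.AV.RankCount66

open Fermat.Agent.JAC.AV.Points66 Fermat.Agent.JAC.AV.Charts66 Fermat.Agent.JAC.AV.Isogeny66
  Fermat.Agent.JAC.AV.TorsionCount66 Fermat.Agent.JAC.AV.NsmulEtale66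

variable {K : Type u} [Field K]

/-- A finite étale scheme over an algebraically closed field has as many sections as its rank. -/
theorem card_sections_eq_finrank [IsAlgClosed K] {P : Scheme.{u}}
    (g : P ⟶ Spec (CommRingCat.of K)) [IsFinite g] [Etale g] (s₀ : Spec (CommRingCat.of K)) :
    Nat.card {s : Spec (CommRingCat.of K) ⟶ P // s ≫ g = 𝟙 _} = g.finrank s₀ := by
  haveI : IsAffine P := isAffine_of_isAffineHom g
  letI : Algebra K Γ(P, ⊤) := algebraΓ g ⊤
  -- `Γ(P, ⊤)` is étale over `K`
  have hE : Algebra.Etale K Γ(P, ⊤) := by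
    have h1 : (g.appLE ⊤ ⊤ le_top).hom.Etale :=
      Etale.etale_appLE g (isAffineOpen_top _) (isAffineOpen_top P) le_top
    have h2 : (kToΓ g ⊤).hom.Etale := by
      unfold kToΓ
      exact (RingHom.Etale.respectsIso.cancel_left_isIso
        (Scheme.ΓSpecIso (CommRingCat.of K)).inv (g.appLE ⊤ ⊤ le_top)).mpr h1
    exact h2
  haveI : Algebra.FormallyEtale K Γ(P, ⊤) := hE.formallyEtale
  haveI : Algebra.FinitePresentation K Γ(P, ⊤) := hE.finitePresentation
  haveI : Module.Finite K Γ(P, ⊤) := Algebra.FormallyUnramified.finite_of_free K Γ(P, ⊤)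
  haveI : IsArtinianRing Γ(P, ⊤) := isArtinian_of_tower K inferInstance
  -- the underlying space
  let e : P ≃ₜ PrimeSpectrum Γ(P, ⊤) := Scheme.homeoOfIso P.isoSpec
  haveI : DiscreteTopology P := e.isEmbedding.discreteTopology
  have hcl : closedPoints P = Set.univ := closedPoints_eq_univ
  -- count the sections
  rw [Nat.card_congr (pointEquivClosedPoint g), hcl, Nat.card_congr (Equiv.Set.univ P),
    Nat.card_congr e.toEquiv]
  -- the rank of `g`
  have hrank : g.finrank s₀ = Module.finrank K Γ(P, ⊤) := by
    have h1 : Spec.map (kToΓ g ⊤) = P.isoSpec.inv ≫ g := by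
      rw [← IsAffineOpen.fromSpec_top, fromSpec_comp]
    have h2 : g.finrank = (Spec.map (kToΓ g ⊤)).finrank := by
      rw [h1, Scheme.Hom.finrank_comp_left_of_isIso]
    have h3 : kToΓ g ⊤ = CommRingCat.ofHom (algebraMap K Γ(P, ⊤)) := rfl
    rw [h2, h3, Scheme.Hom.finrank_SpecMap_algebraMap K Γ(P, ⊤) s₀,
      Module.rankAtStalk_eq_finrank_of_free]
    rfl
  rw [hrank]
  haveI : Fintype (PrimeSpectrum Γ(P, ⊤)) := Fintype.ofFinite _
  rw [(Algebra.FormallyEtale.equivPiOfIsSepClosed K Γ(P, ⊤)).toLinearEquiv.finrank_eq,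
    Module.finrank_fintype_fun_eq_card, Nat.card_eq_fintype_card]


variable {A : Scheme.{u}} {f : A ⟶ Spec (CommRingCat.of K)} (L : RelativeGroupLaw K f)

/-- The unit section `Spec K ⟶ A`. -/
def unitHom : Spec (CommRingCat.of K) ⟶ A := (1 : PtG L K).hom

/-- `n`-torsion `K`-points are the sections of the kernel scheme `[n]⁻¹(e) → Spec K`. -/
def torsionEquivSections (n : ℕ) :
    {x : PtG L K // x ^ n = 1} ≃
      {s : Spec (CommRingCat.of K) ⟶ pullback (L.schemeNsmul n) (unitHom L) //
        s ≫ pullback.snd (L.schemeNsmul n) (unitHom L) = 𝟙 _} where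
  toFun x := ⟨pullback.lift x.1.hom (𝟙 _) (by
      rw [← PtG.pow_hom, x.2, Category.id_comp]; rfl), pullback.lift_snd _ _ _⟩
  invFun s := ⟨PtG.mk (s.1 ≫ pullback.fst (L.schemeNsmul n) (unitHom L)) (by
      calc (s.1 ≫ pullback.fst (L.schemeNsmul n) (unitHom L)) ≫ f
          = (s.1 ≫ pullback.fst (L.schemeNsmul n) (unitHom L)) ≫ (L.schemeNsmul n ≫ f) := by
            rw [L.schemeNsmul_over n]
        _ = (s.1 ≫ pullback.snd (L.schemeNsmul n) (unitHom L)) ≫ (unitHom L ≫ f) := by
            simp only [Category.assoc]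
            rw [← Category.assoc (pullback.fst _ _), pullback.condition]
            simp only [Category.assoc]
        _ = specStr K K := by
            rw [s.2, Category.id_comp]
            exact (1 : PtG L K).hom_over), by
      apply PtG.ext
      rw [PtG.pow_hom, PtG.mk_hom, Category.assoc, pullback.condition, ← Category.assoc, s.2,
        Category.id_comp]
      rfl⟩
  left_inv x := by
    apply Subtype.ext
    apply PtG.ext
    exact pullback.lift_fst _ _ _
  right_inv s := by
    apply Subtype.ext
    apply pullback.hom_ext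
    · exact pullback.lift_fst _ _ _
    · simp only [pullback.lift_snd]
      exact s.2.symm

/-- **The number of `n`-torsion points is the rank of `[n]`.** -/
theorem torsionCard_eq_finrank [IsAlgClosed K] (hc : L.IsCommutative)
    (hA : AbelianSchemePropertyBundle K f) (n : ℕ) (hn : (n : K) ≠ 0) (a : A) :
    torsionCard L n = (L.schemeNsmul n).finrank a := by
  haveI := hA.smooth
  haveI := etale_schemeNsmul L hc n hn
  haveI := isFinite_schemeNsmul L hc hA n hn
  obtain ⟨s₀⟩ : Nonempty (Spec (CommRingCat.of K)) := inferInstance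
  unfold torsionCard
  rw [Nat.card_congr (torsionEquivSections L n),
    card_sections_eq_finrank (pullback.snd (L.schemeNsmul n) (unitHom L)) s₀,
    Scheme.Hom.finrank_pullback_snd]
  exact finrank_schemeNsmul_const L hc hA n hn _ a

end Fermat.Agent.JAC.AV.RankCount66
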