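/-
Program JAC, S26 track, chapter AV (helper66): bridge between the frozen S26 statement
(`SchemeHomOver (𝟙 _) f`, `L.IsTorsionPoint`) and `torsionCard L n` (points `PtG L K`, powers).
-/
import Fermat.Agent.JAC.AV.RankCount66

set_option autoImplicit false

open CategoryTheory CategoryTheory.Limits AlgebraicGeometry NeronModelInfra GoodReductionJacobian

universe u

noncomputable section

namespace Fermat.Agent.JAC.AV.Bridge66

open Fermat.Agent.JAC.AV.Points66 Fermat.Agent.JAC.AV.TorsionCount66 Fermat.Agent.JAC.AV.Basic66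

variable {K : Type u} [Field K] {A : Scheme.{u}} {f : A ⟶ Spec (CommRingCat.of K)}
variable (L : RelativeGroupLaw K f)

theorem specStr_self : specStr K K = 𝟙 (Spec (CommRingCat.of K)) := by
  unfold specStr
  exact Spec.map_id _

/-- Sections in the frozen form are the `K`-points. -/
def sectionEquiv : SchemeHomOver (𝟙 (Spec (CommRingCat.of K))) f ≃ PtG L K where
  toFun x := ⟨x.1, by rw [x.2, specStr_self]⟩
  invFun y := ⟨y.1, by rw [y.2, specStr_self]⟩
  left_inv _ := rfl
  right_inv _ := rfl

theorem sectionEquiv_nsmul (n : ℕ) (x : SchemeHomOver (𝟙 (Spec (CommRingCat.of K))) f) :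
    sectionEquiv L (L.nsmul (𝟙 _) n x) = (sectionEquiv L x) ^ n := by
  apply PtG.ext
  rw [PtG.pow_hom]
  exact nsmul_coe L (𝟙 _) n x

theorem sectionEquiv_one :
    sectionEquiv L (L.one (𝟙 (Spec (CommRingCat.of K)))) = 1 := by
  apply PtG.ext
  show (L.one (𝟙 _)).1 = (L.one (specStr K K)).1
  rw [one_coe L (specStr K K), specStr_self, Category.id_comp]

/-- The frozen S26 count is `torsionCard`. -/
theorem card_isTorsionPoint_eq (n : ℕ) :
    Nat.card {x : SchemeHomOver (𝟙 (Spec (CommRingCat.of K))) f //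
      L.IsTorsionPoint (𝟙 (Spec (CommRingCat.of K))) n x} = torsionCard L n := by
  unfold torsionCard
  refine Nat.card_congr ((sectionEquiv L).subtypeEquiv fun x => ?_)
  show L.nsmul (𝟙 _) n x = L.one (𝟙 _) ↔ sectionEquiv L x ^ n = 1
  rw [← sectionEquiv_nsmul, ← sectionEquiv_one]
  exact (sectionEquiv L).injective.eq_iff.symm

end Fermat.Agent.JAC.AV.Bridge66
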