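/-
Programme JAC, S26 track, chapter AV (helper66).

The case of relative dimension `0`: an integral étale scheme over an algebraically closed field
is a single point.  (Used for the `g = 0` case of S26 and of the covering package.)
-/
import Mathlib
import Fermat.Agent.JAC.AV.Charts66

set_option autoImplicit false

open CategoryTheory CategoryTheory.Limits AlgebraicGeometry

universe u

namespace Fermat.Agent.JAC.AV.DimZero66

open Fermat.Agent.JAC.AV.Charts66

/-- A domain which is a finite étale algebra over a separably closed field has a one-point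
spectrum. -/
theorem subsingleton_primeSpectrum_of_etale (K B : Type u) [Field K] [IsSepClosed K] [CommRing B]
    [IsDomain B] [Algebra K B] [Algebra.Etale K B] : Subsingleton (PrimeSpectrum B) := by
  classical
  haveI : Algebra.EssFiniteType K B := inferInstance
  let e := Algebra.FormallyEtale.equivPiOfIsSepClosed K B
  refine ⟨fun p q => ?_⟩
  by_contra hpq
  let a : PrimeSpectrum B → K := Pi.single p 1
  let b : PrimeSpectrum B → K := Pi.single q 1
  have hab : a * b = 0 := by
    funext x
    simp only [a, b, Pi.mul_apply, Pi.zero_apply, Pi.single_apply]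
    by_cases hx : x = p
    · subst hx
      simp [hpq]
    · simp [hx]
  have h : e.symm a * e.symm b = 0 := by rw [← map_mul, hab, map_zero]
  rcases mul_eq_zero.mp h with h | h
  · have : a = 0 := by simpa using congrArg e h
    have := congrFun this p
    simp [a] at this
  · have : b = 0 := by simpa using congrArg e h
    have := congrFun this q
    simp [b] at this

variable {K : Type u} [Field K] {A : Scheme.{u}} (f : A ⟶ Spec (CommRingCat.of K))

/-- Coordinate rings of affine opens of an étale `K`-scheme are étale `K`-algebras. -/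
theorem etale_algebraΓ [Etale f] {U : A.Opens} (hU : IsAffineOpen U) :
    letI := algebraΓ f U
    Algebra.Etale K Γ(A, U) := by
  letI := algebraΓ f U
  have h1 : (f.appLE ⊤ U le_top).hom.Etale :=
    HasRingHomProperty.appLE @Etale f ‹_› ⟨⊤, isAffineOpen_top _⟩ ⟨U, hU⟩ le_top
  have h2 : (kToΓ f U).hom.Etale := by
    unfold kToΓ
    exact (RingHom.Etale.respectsIso.cancel_left_isIso
      (Scheme.ΓSpecIso (CommRingCat.of K)).inv (f.appLE ⊤ U le_top)).mpr h1
  exact h2

/-- An integral étale scheme over a separably closed field is a single point. -/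
theorem subsingleton_of_etale [IsSepClosed K] [Etale f] [IsIntegral A] : Subsingleton A := by
  -- every affine open is a single point
  have key : ∀ U : A.Opens, IsAffineOpen U → ∀ x y : A, x ∈ U → y ∈ U → x = y := by
    intro U hU x y hx hy
    haveI : Nonempty U := ⟨⟨x, hx⟩⟩
    letI := algebraΓ f U
    haveI := etale_algebraΓ f hU
    haveI : IsDomain Γ(A, U) := inferInstance
    haveI := subsingleton_primeSpectrum_of_etale K Γ(A, U)
    have h1 := hU.fromSpec_primeIdealOf ⟨x, hx⟩
    have h2 := hU.fromSpec_primeIdealOf ⟨y, hy⟩
    have h3 : hU.primeIdealOf ⟨x, hx⟩ = hU.primeIdealOf ⟨y, hy⟩ := Subsingleton.elim _ _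
    rw [h3] at h1
    exact h1.symm.trans h2
  refine ⟨fun x y => ?_⟩
  obtain ⟨_, ⟨U, hU, rfl⟩, hxU, -⟩ :=
    A.isBasis_affineOpens.exists_subset_of_mem_open (Set.mem_univ x) isOpen_univ
  obtain ⟨_, ⟨V, hV, rfl⟩, hyV, -⟩ :=
    A.isBasis_affineOpens.exists_subset_of_mem_open (Set.mem_univ y) isOpen_univ
  -- nonempty opens of an irreducible space meet
  obtain ⟨z, hzU, hzV⟩ := nonempty_preirreducible_inter U.isOpen V.isOpen ⟨x, hxU⟩ ⟨y, hyV⟩
  exact (key U hU x z hxU hzU).trans (key V hV y z hyV hzV).symm

end Fermat.Agent.JAC.AV.DimZero66
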