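/-
Programme JAC, S26 track, chapter AV (helper66).

`A` (the abelian variety of S26) is an integral, normal scheme with factorial local rings:
a connected, locally Noetherian scheme with integral local rings is irreducible; smooth over a
field implies reduced (helper27) and factorial local rings (helper31 et al., DIV1).
-/
import Mathlib
import Fermat.Prelude.Def_JacJ1Iface
import Fermat.Agent.JAC.Div1.SchemeUFD31
import Fermat.Agent.JAC.Prop.SmoothReduced27
import Fermat.Agent.JAC.AV.Isogeny66

set_option autoImplicit false

universe u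

open CategoryTheory AlgebraicGeometry TopologicalSpace

namespace Fermat.Agent.JAC.AV.Integral66

section Top

variable {X : Scheme.{u}}

/-- The image in `X` of the generic point of `Spec 𝒪_{X,x}` when the stalk is a domain. -/
noncomputable def stalkGeneric (x : X) [IsDomain (X.presheaf.stalk x)] : X :=
  X.fromSpecStalk x ⟨⊥, Ideal.isPrime_bot⟩

theorem stalkGeneric_specializes (x : X) [IsDomain (X.presheaf.stalk x)] {y : X} (hy : y ⤳ x) :
    stalkGeneric x ⤳ y := by
  have hy' : y ∈ Set.range (X.fromSpecStalk x) := by
    rw [Scheme.range_fromSpecStalk]; exact hy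
  obtain ⟨p, rfl⟩ := hy'
  have hp : (⟨⊥, Ideal.isPrime_bot⟩ : PrimeSpectrum (X.presheaf.stalk x)) ⤳ p := by
    rw [← PrimeSpectrum.le_iff_specializes]
    exact bot_le (a := p.asIdeal)
  exact hp.map (X.fromSpecStalk x).continuous

/-- If the stalk at `x` is a domain, every irreducible component through `x` is the closure of
`stalkGeneric x`. -/
theorem eq_closure_stalkGeneric (x : X) [IsDomain (X.presheaf.stalk x)] {Z : Set X}
    (hZ : Z ∈ irreducibleComponents X) (hx : x ∈ Z) : Z = closure {stalkGeneric x} := by
  have hZirr : IsIrreducible Z := hZ.1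
  have hZcl : IsClosed Z := isClosed_of_mem_irreducibleComponents Z hZ
  -- generic point of Z
  obtain ⟨η, hη⟩ := QuasiSober.sober hZirr hZcl
  have hηx : η ⤳ x := by
    rw [specializes_iff_mem_closure, hη.def]; exact hx
  have hξη : stalkGeneric x ⤳ η := stalkGeneric_specializes x hηx
  have hsub : Z ⊆ closure {stalkGeneric x} := by
    rw [← hη.def]
    exact closure_minimal (Set.singleton_subset_iff.mpr hξη.mem_closure) isClosed_closure
  have hirr : IsIrreducible (closure ({stalkGeneric x} : Set X)) := isIrreducible_singleton.closure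
  exact le_antisymm hsub (hZ.2 hirr hsub)

/-- A connected Noetherian scheme with integral local rings is irreducible. -/
theorem irreducibleSpace_of_connected [IsNoetherian X] [ConnectedSpace X]
    [∀ x : X, IsDomain (X.presheaf.stalk x)] : IrreducibleSpace X := by
  have hfin : (irreducibleComponents X).Finite := NoetherianSpace.finite_irreducibleComponents
  obtain ⟨x₀⟩ : Nonempty X := inferInstance
  -- the component of x₀
  -- every component through a point of Z equals Z: pairwise disjointness
  have hdisj : ∀ Z ∈ irreducibleComponents X, ∀ Z' ∈ irreducibleComponents X,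
      (Z ∩ Z').Nonempty → Z = Z' := by
    intro Z hZ Z' hZ' ⟨x, hxZ, hxZ'⟩
    rw [eq_closure_stalkGeneric x hZ hxZ, eq_closure_stalkGeneric x hZ' hxZ']
  obtain ⟨Z, hZ, hx₀Z⟩ : ∃ Z ∈ irreducibleComponents X, x₀ ∈ Z := by
    have : x₀ ∈ ⋃₀ irreducibleComponents X := by rw [sUnion_irreducibleComponents]; trivial
    obtain ⟨Z, hZ, hx⟩ := this
    exact ⟨Z, hZ, hx⟩
  -- Z is clopen
  have hZcl : IsClosed Z := isClosed_of_mem_irreducibleComponents Z hZ
  have hcompl : Zᶜ = ⋃₀ (irreducibleComponents X \ {Z}) := by
    ext y
    constructor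
    · intro hy
      have : y ∈ ⋃₀ irreducibleComponents X := by rw [sUnion_irreducibleComponents]; trivial
      obtain ⟨Z', hZ', hyZ'⟩ := this
      refine ⟨Z', ⟨hZ', ?_⟩, hyZ'⟩
      rintro (rfl : Z' = Z)
      exact hy hyZ'
    · rintro ⟨Z', ⟨hZ', hne⟩, hyZ'⟩ hyZ
      exact hne (hdisj Z' hZ' Z hZ ⟨y, hyZ', hyZ⟩)
  have hZop : IsOpen Z := by
    rw [← isClosed_compl_iff, hcompl, Set.sUnion_eq_biUnion]
    exact (hfin.subset Set.diff_subset).isClosed_biUnion
      (fun W hW => isClosed_of_mem_irreducibleComponents W hW.1)
  have hZuniv : Z = Set.univ :=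
    (isClopen_iff.mp ⟨hZcl, hZop⟩).resolve_left (Set.nonempty_iff_ne_empty.mp ⟨x₀, hx₀Z⟩)
  have hirr : IsIrreducible (Set.univ : Set X) := hZuniv ▸ hZ.1
  haveI : PreirreducibleSpace X := ⟨hirr.2⟩
  exact { toNonempty := ⟨x₀⟩ }

end Top

section AV

open GoodReductionJacobian NeronModelInfra

variable {K : Type u} [Field K] [IsAlgClosed K] {A : Scheme.{u}}
  (f : A ⟶ Spec (CommRingCat.of K))

/-- The abelian variety is a Noetherian scheme. -/
theorem isNoetherian_of_bundle (hA : AbelianSchemePropertyBundle K f) : IsNoetherian A := by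
  haveI := hA.smooth
  haveI := hA.proper
  haveI : IsLocallyNoetherian A := LocallyOfFiniteType.isLocallyNoetherian f
  haveI : CompactSpace A := by
    have : QuasiCompact f := inferInstance
    exact QuasiCompact.compactSpace_of_compactSpace f
  exact { }

/-- The abelian variety is integral. -/
theorem isIntegral_of_bundle (hA : AbelianSchemePropertyBundle K f) : IsIntegral A := by
  haveI := hA.smooth
  haveI := isNoetherian_of_bundle f hA
  haveI := Fermat.Agent.JAC.AV.Isogeny66.connectedSpace_of_bundle hA
  haveI : ∀ x : A, IsDomain (A.presheaf.stalk x) := fun x =>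
    (Fermat.Agent.JAC.Div1.SchemeUFD31.ufd_stalk_of_smooth f x).1
  haveI : IrreducibleSpace A := irreducibleSpace_of_connected
  haveI : IsReduced A := Fermat.Agent.JAC.Prop.SmoothReduced27.isReduced_of_smooth_field f
  exact isIntegral_of_irreducibleSpace_of_isReduced A

/-- The local rings of the abelian variety are factorial. -/
theorem ufm_stalk_of_bundle (hA : AbelianSchemePropertyBundle K f) (x : A) :
    UniqueFactorizationMonoid (A.presheaf.stalk x) := by
  haveI := hA.smooth
  exact (Fermat.Agent.JAC.Div1.SchemeUFD31.ufd_stalk_of_smooth f x).2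

/-- The abelian variety is normal. -/
theorem isIntegrallyClosed_stalk_of_bundle (hA : AbelianSchemePropertyBundle K f) (x : A) :
    IsIntegrallyClosed (A.presheaf.stalk x) := by
  haveI := hA.smooth
  haveI : IsDomain (A.presheaf.stalk x) :=
    (Fermat.Agent.JAC.Div1.SchemeUFD31.ufd_stalk_of_smooth f x).1
  haveI := ufm_stalk_of_bundle f hA x
  infer_instance

end AV

end Fermat.Agent.JAC.AV.Integral66
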