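/-
Programme JAC, S26 track, chapter AV (helper66).

The inversion morphism `neg = [-1] : A ⟶ A` of a relative group law, as an involution over the
base, and the symmetrisation `D + [-1]^* D` of a Cartier divisor (field form, helper69's DIV2).
-/
import Mathlib
import Fermat.Prelude.Def_JacJ1Iface
import Fermat.Prelude.Def_GoodReductionJacobian_RelativeGroupLawKernel
import Fermat.Agent.JAC.AV.Basic66
import Fermat.Agent.JAC.Div2.Pull69

set_option autoImplicit false

open CategoryTheory CategoryTheory.Limits AlgebraicGeometry NeronModelInfra GoodReductionJacobian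

universe u

namespace Fermat.Agent.JAC.AV.Neg66

open Fermat.Agent.JAC.AV.Basic66

variable {R : Type u} [CommRing R] {A : Scheme.{u}} {f : A ⟶ Spec (CommRingCat.of R)}
  (L : RelativeGroupLaw R f)

/-- Inversion commutes with base change of points. -/
theorem inv_natural {T T' : Scheme.{u}} (t : T ⟶ Spec (CommRingCat.of R))
    (t' : T' ⟶ Spec (CommRingCat.of R)) (ψ : T' ⟶ T) (hψ : ψ ≫ t = t')
    (x : SchemeHomOver t f) :
    schemeHomOverComp ψ hψ (L.inv t x) = L.inv t' (schemeHomOverComp ψ hψ x) := by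
  letI := pointGroup L t'
  have h : schemeHomOverComp ψ hψ (L.inv t x) * schemeHomOverComp ψ hψ x = 1 := by
    change L.mul t' _ _ = L.one t'
    rw [← L.mul_natural t t' ψ hψ, L.inv_mul_cancel, L.one_natural t t' ψ hψ]
  exact eq_inv_of_mul_eq_one_left h

/-- The inversion morphism `[-1] : A ⟶ A`. -/
noncomputable def neg : A ⟶ A := (L.inv f RelativeGroupLaw.idPoint).1

theorem neg_over : neg L ≫ f = f := (L.inv f RelativeGroupLaw.idPoint).2

/-- Inversion on `T`-points is composition with `[-1]`. -/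
theorem inv_coe {T : Scheme.{u}} (t : T ⟶ Spec (CommRingCat.of R)) (x : SchemeHomOver t f) :
    (L.inv t x).1 = x.1 ≫ neg L := by
  have h := inv_natural L f t x.1 x.2 (RelativeGroupLaw.idPoint (f := f))
  rw [← eq_comp_idPoint x] at h
  rw [← h]
  rfl

theorem neg_neg : neg L ≫ neg L = 𝟙 A := by
  letI := pointGroup L f
  have h := inv_coe L f (L.inv f RelativeGroupLaw.idPoint)
  have h2 : L.inv f (L.inv f RelativeGroupLaw.idPoint) = RelativeGroupLaw.idPoint :=
    inv_inv (RelativeGroupLaw.idPoint (f := f))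
  rw [h2] at h
  exact h.symm

/-- `[-1]` as an automorphism of `A`. -/
noncomputable def negIso : A ≅ A where
  hom := neg L
  inv := neg L
  hom_inv_id := neg_neg L
  inv_hom_id := neg_neg L

instance : IsIso (neg L) := (negIso L).isIso_hom

/-- `[-1]` commutes with `[n]`. -/
theorem neg_comp_schemeNsmul (n : ℕ) :
    neg L ≫ L.schemeNsmul n = L.schemeNsmul n ≫ neg L := by
  letI := pointGroup L f
  have h1 := nsmul_coe L f n (L.inv f RelativeGroupLaw.idPoint)
  have h2 := inv_coe L f (L.nsmul f n RelativeGroupLaw.idPoint)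
  have h3 : L.nsmul f n (L.inv f RelativeGroupLaw.idPoint) =
      L.inv f (L.nsmul f n RelativeGroupLaw.idPoint) := by
    rw [nsmul_eq_pow, nsmul_eq_pow]
    exact inv_pow (RelativeGroupLaw.idPoint (f := f)) n
  rw [h3] at h1
  exact h1.symm.trans h2

section Divisors

open Fermat.Agent.JAC.Div2 Fermat.Agent.JAC.Div2.CaDiv69

variable [IsIntegral A]

/-- The symmetrisation `D + [-1]^* D`. -/
noncomputable def symm (D : CaDiv A) : CaDiv A := D + Pull69.CaDiv.pull (neg L) D

theorem pull_neg_symm (D : CaDiv A) : Pull69.CaDiv.pull (neg L) (symm L D) = symm L D := by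
  unfold symm
  rw [Pull69.CaDiv.pull_add, ← Pull69.CaDiv.pull_comp,
    Pull69.CaDiv.pull_congr (g' := 𝟙 A) (neg_neg L), Pull69.CaDiv.pull_id, add_comm]

theorem isEffective_symm {D : CaDiv A} (hD : D.IsEffective) : (symm L D).IsEffective :=
  hD.add (Pull69.CaDiv.IsEffective.pull hD (neg L))

theorem suppCompl_symm {D : CaDiv A} (hD : D.IsEffective) :
    (symm L D).suppCompl = D.suppCompl ⊓ (neg L) ⁻¹ᵁ D.suppCompl := by
  ext x
  change x ∈ ((symm L D).supp)ᶜ ↔ _
  unfold symm
  rw [CaDiv.supp_add hD (Pull69.CaDiv.IsEffective.pull hD (neg L)),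
    Pull69.CaDiv.supp_pull (neg L) hD]
  simp only [Set.compl_union, Set.mem_inter_iff]
  rfl

theorem isAffineOpen_suppCompl_symm [IsSeparated f] {D : CaDiv A} (hD : D.IsEffective)
    (hU : IsAffineOpen D.suppCompl) : IsAffineOpen (symm L D).suppCompl := by
  rw [suppCompl_symm L hD]
  have hV : IsAffineOpen ((neg L) ⁻¹ᵁ D.suppCompl) := hU.preimage_of_isIso (neg L)
  have hdiag : IsAffineHom (pullback.diagonal f) := inferInstance
  exact isAffineHom_diagonal_iff.mp hdiag ⊤ (isAffineOpen_top _) _ (by simp) _ (by simp) hU hV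

end Divisors

end Fermat.Agent.JAC.AV.Neg66
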