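/-
Program JAC, S26 track, chapter AV (helper66): translations on a relative group law.
-/
import Fermat.Agent.JAC.AV.Basic66

set_option autoImplicit false

open CategoryTheory CategoryTheory.Limits AlgebraicGeometry NeronModelInfra GoodReductionJacobian

universe u

noncomputable section

namespace Fermat.Agent.JAC.AV.Transl66

open Fermat.Agent.JAC.AV.Basic66

variable {R : Type u} [CommRing R] {A : Scheme.{u}} {f : A ⟶ Spec (CommRingCat.of R)}

/-- Sections of `f` (the `R`-points of `A`). -/
abbrev Sec (f : A ⟶ Spec (CommRingCat.of R)) := SchemeHomOver (𝟙 (Spec (CommRingCat.of R))) f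

/-- The constant `T`-point attached to a section. -/
def constPt {T : Scheme.{u}} (t : T ⟶ Spec (CommRingCat.of R)) (a : Sec f) : SchemeHomOver t f :=
  schemeHomOverComp t (Category.comp_id t) a

@[simp] theorem constPt_coe {T : Scheme.{u}} (t : T ⟶ Spec (CommRingCat.of R)) (a : Sec f) :
    (constPt t a).1 = t ≫ a.1 := rfl

theorem comp_constPt {T T' : Scheme.{u}} (t : T ⟶ Spec (CommRingCat.of R))
    (t' : T' ⟶ Spec (CommRingCat.of R)) (ψ : T' ⟶ T) (hψ : ψ ≫ t = t') (a : Sec f) :
    schemeHomOverComp ψ hψ (constPt t a) = constPt t' a := by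
  apply Subtype.ext
  simp only [schemeHomOverComp_coe, constPt_coe]
  rw [← Category.assoc, hψ]

variable (L : RelativeGroupLaw R f)

/-- `constPt t` is a group homomorphism `A(R) → A(T)`. -/
theorem constPt_mul {T : Scheme.{u}} (t : T ⟶ Spec (CommRingCat.of R)) (a b : Sec f) :
    constPt t (L.mul (𝟙 _) a b) = L.mul t (constPt t a) (constPt t b) :=
  L.mul_natural (𝟙 _) t t (Category.comp_id t) a b

theorem constPt_one {T : Scheme.{u}} (t : T ⟶ Spec (CommRingCat.of R)) :
    constPt t (L.one (𝟙 _)) = L.one t :=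
  L.one_natural (𝟙 _) t t (Category.comp_id t)

/-- Translation by a section `a`, as an endomorphism of the scheme `A`: `x ↦ x * a`. -/
def transl (a : Sec f) : A ⟶ A :=
  (L.mul f RelativeGroupLaw.idPoint (constPt f a)).1

theorem transl_over (a : Sec f) : transl L a ≫ f = f :=
  (L.mul f RelativeGroupLaw.idPoint (constPt f a)).2

/-- On `T`-points, `transl a` is right multiplication by the constant point `a`. -/
theorem comp_transl {T : Scheme.{u}} (t : T ⟶ Spec (CommRingCat.of R)) (x : SchemeHomOver t f)
    (a : Sec f) : x.1 ≫ transl L a = (L.mul t x (constPt t a)).1 := by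
  have h := L.mul_natural f t x.1 x.2 RelativeGroupLaw.idPoint (constPt f a)
  rw [← eq_comp_idPoint x, comp_constPt] at h
  rw [← h]
  rfl

/-- Two endomorphisms of `A` over the base agree iff they agree on the universal point. -/
theorem transl_one : transl L (L.one (𝟙 _)) = 𝟙 A := by
  have h := comp_transl L f RelativeGroupLaw.idPoint (L.one (𝟙 _))
  rw [constPt_one, L.mul_one] at h
  simpa using h

theorem transl_comp (a b : Sec f) : transl L a ≫ transl L b = transl L (L.mul (𝟙 _) a b) := by
  have h1 := comp_transl L f (L.mul f RelativeGroupLaw.idPoint (constPt f a)) b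
  have h2 : (L.mul f RelativeGroupLaw.idPoint (constPt f a)).1 = transl L a := rfl
  rw [h2, L.mul_assoc, ← constPt_mul] at h1
  exact h1

/-- Translations are isomorphisms. -/
def translIso (a : Sec f) : A ≅ A where
  hom := transl L a
  inv := transl L (L.inv (𝟙 _) a)
  hom_inv_id := by rw [transl_comp, L.mul_inv_cancel, transl_one]
  inv_hom_id := by rw [transl_comp, L.inv_mul_cancel, transl_one]

instance (a : Sec f) : IsIso (transl L a) := (translIso L a).isIso_hom

end Fermat.Agent.JAC.AV.Transl66

namespace Fermat.Agent.JAC.AV.Transl66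

open Fermat.Agent.JAC.AV.Basic66

variable {R : Type u} [CommRing R] {A : Scheme.{u}} {f : A ⟶ Spec (CommRingCat.of R)}
variable (L : RelativeGroupLaw R f)

/-- In a commutative relative group law, `[n]` is a homomorphism on `T`-points. -/
theorem nsmul_mul (hc : L.IsCommutative) {T : Scheme.{u}} (t : T ⟶ Spec (CommRingCat.of R))
    (n : ℕ) (x y : SchemeHomOver t f) :
    L.nsmul t n (L.mul t x y) = L.mul t (L.nsmul t n x) (L.nsmul t n y) := by
  let _ := pointCommGroup L hc t
  rw [nsmul_eq_pow, nsmul_eq_pow, nsmul_eq_pow]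
  exact mul_pow x y n

theorem constPt_nsmul {T : Scheme.{u}} (t : T ⟶ Spec (CommRingCat.of R)) (n : ℕ) (a : Sec f) :
    constPt t (L.nsmul (𝟙 _) n a) = L.nsmul t n (constPt t a) :=
  L.nsmul_natural (𝟙 _) t t (Category.comp_id t) n a

/-- `[n] ∘ τ_a = τ_{n a} ∘ [n]` (diagrammatic order) for a commutative law. -/
theorem transl_comp_schemeNsmul (hc : L.IsCommutative) (n : ℕ) (a : Sec f) :
    transl L a ≫ L.schemeNsmul n = L.schemeNsmul n ≫ transl L (L.nsmul (𝟙 _) n a) := by
  have h1 := nsmul_coe L f n (L.mul f RelativeGroupLaw.idPoint (constPt f a))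
  have h2 := comp_transl L f (L.nsmul f n RelativeGroupLaw.idPoint) (L.nsmul (𝟙 _) n a)
  rw [nsmul_mul L hc] at h1
  rw [constPt_nsmul] at h2
  exact h1.symm.trans h2.symm

end Fermat.Agent.JAC.AV.Transl66
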